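import Fermat.Agent.S20
import Fermat.Agent.Oldforms.Basic

/-!
# The levels of genus zero and one (helper62)

The dimension of `S₂(Γ₀(N))` as a decidable expression (`finrank_eq`, from S20), the levels with
`S₂(Γ₀(N)) = 0` (`finrank_eq_zero_iff`: `N = 1, …, 10, 12, 13, 16, 18, 25`) and the levels with
`dim S₂(Γ₀(N)) = 1` (`finrank_eq_one_iff`: `N = 11, 14, 15, 17, 19, 20, 21, 24, 27, 32, 36, 49`).
-/

set_option autoImplicit false

open ModularCurve CongruenceSubgroup

namespace Fermat.Agent.Cor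

/-- the number of solutions of `x² + 1 = 0` modulo `N` -/
def nu2 (N : ℕ) : ℕ := ((Finset.range N).filter fun x => N ∣ x ^ 2 + 1).card

/-- the number of solutions of `x² + x + 1 = 0` modulo `N` -/
def nu3 (N : ℕ) : ℕ := ((Finset.range N).filter fun x => N ∣ x ^ 2 + x + 1).card

theorem card_zmod_eq (N : ℕ) [NeZero N] (P : ZMod N → Prop) (Q : ℕ → Prop) [DecidablePred Q]
    (h : ∀ x : ℕ, P (x : ZMod N) ↔ Q x) :
    Nat.card {x : ZMod N // P x} = ((Finset.range N).filter Q).card := by
  classical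
  rw [← Fintype.card_coe, ← Nat.card_eq_fintype_card]
  refine Nat.card_congr
    { toFun := fun x => ⟨x.1.val, ?_⟩
      invFun := fun x => ⟨(x.1 : ZMod N), ?_⟩
      left_inv := fun x => Subtype.ext ?_
      right_inv := fun x => Subtype.ext ?_ }
  · rw [Finset.mem_filter, Finset.mem_range]
    refine ⟨ZMod.val_lt _, ?_⟩
    rw [← h, ZMod.natCast_zmod_val]
    exact x.2
  · rw [h]
    exact (Finset.mem_filter.1 x.2).2
  · exact ZMod.natCast_zmod_val _
  · exact ZMod.val_cast_of_lt (Finset.mem_range.1 (Finset.mem_filter.1 x.2).1)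

theorem nuTwo_eq (N : ℕ) [NeZero N] : nuTwo N = nu2 N :=
  card_zmod_eq N _ _ fun x => by
    rw [← ZMod.natCast_eq_zero_iff]
    push_cast
    rfl

theorem nuThree_eq (N : ℕ) [NeZero N] : nuThree N = nu3 N :=
  card_zmod_eq N _ _ fun x => by
    rw [← ZMod.natCast_eq_zero_iff]
    push_cast
    rfl

/-- Twelve times the genus of `X₀(N)`. -/
def genus12 (N : ℕ) : ℤ := 12 + dedekindPsi N - 3 * nu2 N - 4 * nu3 N - 6 * cuspCount N

theorem genusFormula_eq (N : ℕ) [NeZero N] : genusFormula N = (genus12 N : ℚ) / 12 := by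
  rw [genusFormula, nuTwo_eq, nuThree_eq, genus12]
  push_cast
  ring

/-- **The dimension of `S₂(Γ₀(N))`**, as a decidable expression. -/
theorem finrank_eq (N : ℕ) [NeZero N] :
    12 * (Module.finrank ℂ (CuspForm (Gamma0 N) 2) : ℤ) = genus12 N := by
  have h := S20.result N
  rw [genusFormula_eq] at h
  have h1 : (12 : ℚ) * (Module.finrank ℂ (CuspForm (Gamma0 N) 2) : ℚ) = (genus12 N : ℚ) := by
    rw [h]
    ring
  exact_mod_cast h1

theorem finrank_eq_iff (N : ℕ) [NeZero N] (g : ℕ) :
    Module.finrank ℂ (CuspForm (Gamma0 N) 2) = g ↔ genus12 N = 12 * g := by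
  rw [← finrank_eq]
  omega

theorem finrank_le_of_dvd {M N : ℕ} [NeZero M] [NeZero N] (h : M ∣ N) :
    Module.finrank ℂ (CuspForm (Gamma0 M) 2) ≤ Module.finrank ℂ (CuspForm (Gamma0 N) 2) :=
  LinearMap.finrank_le_finrank_of_injective (f := Oldforms.restr N h 2)
    (Oldforms.restr_injective h)

/-! ### Prime levels -/

theorem card_roots_le {F : Type*} [Field F] [Finite F] (P : F → Prop) (b : F)
    (h : ∀ x y, P x → P y → (x - y) * (x + y + b) = 0) : Nat.card {x : F // P x} ≤ 2 := by
  classical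
  by_cases hne : ∃ x, P x
  · obtain ⟨x, hx⟩ := hne
    have h1 : Nat.card {x : F // P x} = Set.ncard {x : F | P x} := rfl
    rw [h1]
    refine (Set.ncard_le_ncard (t := ({x, -x - b} : Set F)) (fun y hy => ?_)
      (Set.toFinite _)).trans ((Set.ncard_insert_le _ _).trans (by rw [Set.ncard_singleton]))
    rcases mul_eq_zero.1 (h x y hx hy) with h2 | h2
    · exact Or.inl (sub_eq_zero.1 h2).symm
    · exact Or.inr (by
        rw [Set.mem_singleton_iff]
        linear_combination h2)
  · have : IsEmpty {x : F // P x} := ⟨fun x => hne ⟨x.1, x.2⟩⟩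
    rw [Nat.card_of_isEmpty]
    exact Nat.zero_le _

theorem genus12_prime {p : ℕ} (hp : p.Prime) : (p : ℤ) - 13 ≤ genus12 p := by
  have : Fact p.Prime := ⟨hp⟩
  have : NeZero p := ⟨hp.ne_zero⟩
  have h1 : nu2 p ≤ 2 := by
    rw [← nuTwo_eq]
    exact card_roots_le _ 0 fun x y hx hy => by linear_combination hx - hy
  have h2 : nu3 p ≤ 2 := by
    rw [← nuThree_eq]
    exact card_roots_le _ 1 fun x y hx hy => by linear_combination hx - hy
  have h3 : dedekindPsi p = p + 1 := by
    rw [dedekindPsi, hp.divisors, Finset.filter_true_of_mem, Finset.sum_pair hp.one_lt.ne,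
      Nat.div_one, Nat.div_self hp.pos]
    intro x hx
    rcases Finset.mem_insert.1 hx with rfl | h
    · exact squarefree_one
    · rw [Finset.mem_singleton.1 h]
      exact hp.prime.squarefree
  have h4 : cuspCount p = 2 := by
    rw [cuspCount, hp.divisors, Finset.sum_pair hp.one_lt.ne, Nat.div_one, Nat.div_self hp.pos,
      Nat.gcd_one_left, Nat.gcd_one_right, Nat.totient_one]
  rw [genus12, h3, h4]
  push_cast
  omega

/-! ### The classification -/

/-- The levels `N` with `g(X₀(N)) = 0`. -/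
def zeroLevels : List ℕ := [1, 2, 3, 4, 5, 6, 7, 8, 9, 10, 12, 13, 16, 18, 25]

/-- The levels `N` with `g(X₀(N)) = 1`. -/
def oneLevels : List ℕ := [11, 14, 15, 17, 19, 20, 21, 24, 27, 32, 36, 49]

theorem genus12_zeroLevels : ∀ N ∈ zeroLevels, genus12 N = 0 := by decide +kernel

theorem genus12_oneLevels : ∀ N ∈ oneLevels, genus12 N = 12 := by decide +kernel

theorem step_table : ∀ M ∈ zeroLevels ++ oneLevels, ∀ p ∈ [2, 3, 5, 7, 11, 13, 17, 19],
    p * M ∈ zeroLevels ++ oneLevels ∨ 12 < genus12 (p * M) := by decide +kernel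

theorem small_table : ∀ p ∈ Finset.range 26, p.Prime → p ∉ [2, 3, 5, 7, 11, 13, 17, 19] →
    12 < genus12 p := by decide +kernel

/-- `g(X₀(N)) ≤ 1` only for the `27` levels of the two lists. -/
theorem mem_of_finrank_le_one (N : ℕ) : ∀ [NeZero N],
    Module.finrank ℂ (CuspForm (Gamma0 N) 2) ≤ 1 → N ∈ zeroLevels ++ oneLevels := by
  induction N using Nat.strong_induction_on with
  | _ N ih =>
    intro hN h
    have h12 : genus12 N ≤ 12 := by
      rw [← finrank_eq]
      omega
    by_cases h1 : N = 1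
    · subst h1
      decide
    obtain ⟨p, hp, M, rfl⟩ := Nat.exists_prime_and_dvd h1
    have hM0 : M ≠ 0 := fun h0 => hN.out (by rw [h0, mul_zero])
    have : NeZero M := ⟨hM0⟩
    have : NeZero p := ⟨hp.ne_zero⟩
    have hM : M ∈ zeroLevels ++ oneLevels :=
      ih M (lt_mul_of_one_lt_left (Nat.pos_of_ne_zero hM0) hp.one_lt)
        ((finrank_le_of_dvd (dvd_mul_left M p)).trans h)
    have hp12 : genus12 p ≤ 12 := by
      rw [← finrank_eq]
      have := (finrank_le_of_dvd (dvd_mul_right p M)).trans h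
      omega
    have hp26 : p < 26 := by
      have := genus12_prime hp
      omega
    have hpm : p ∈ [2, 3, 5, 7, 11, 13, 17, 19] := by
      by_contra hpm
      have := small_table p (Finset.mem_range.2 hp26) hp hpm
      omega
    rcases step_table M hM p hpm with h2 | h2
    · exact h2
    · omega

/-- **`S₂(Γ₀(N)) = 0` if and only if `N = 1, …, 10, 12, 13, 16, 18, 25`.** -/
theorem finrank_eq_zero_iff (N : ℕ) [NeZero N] :
    Module.finrank ℂ (CuspForm (Gamma0 N) 2) = 0 ↔ N ∈ zeroLevels := by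
  constructor
  · intro h
    rcases List.mem_append.1 (mem_of_finrank_le_one N (h.trans_le zero_le_one)) with h1 | h1
    · exact h1
    · have h2 := genus12_oneLevels N h1
      have h3 := finrank_eq N
      rw [h, h2] at h3
      norm_num at h3
  · intro h
    rw [finrank_eq_iff, genus12_zeroLevels N h]
    norm_num

/-- **`dim S₂(Γ₀(N)) = 1` if and only if `N = 11, 14, 15, 17, 19, 20, 21, 24, 27, 32, 36, 49`.** -/
theorem finrank_eq_one_iff (N : ℕ) [NeZero N] :
    Module.finrank ℂ (CuspForm (Gamma0 N) 2) = 1 ↔ N ∈ oneLevels := by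
  constructor
  · intro h
    rcases List.mem_append.1 (mem_of_finrank_le_one N h.le) with h1 | h1
    · have h2 := genus12_zeroLevels N h1
      have h3 := finrank_eq N
      rw [h, h2] at h3
      norm_num at h3
    · exact h1
  · intro h
    rw [finrank_eq_iff, genus12_oneLevels N h]
    norm_num

/-- The genus formula vanishes exactly at the `15` levels of genus zero. -/
theorem genusFormula_eq_zero_iff (N : ℕ) [NeZero N] : genusFormula N = 0 ↔ N ∈ zeroLevels := by
  rw [← finrank_eq_zero_iff, ← S20.result, Nat.cast_eq_zero]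

/-- **No cusp forms of weight two at a level of genus zero.** -/
theorem eq_zero_of_mem {N : ℕ} [NeZero N] (hN : N ∈ zeroLevels) (f : CuspForm (Gamma0 N) 2) :
    f = 0 :=
  (Module.finrank_zero_iff.1 ((finrank_eq_zero_iff N).2 hN)).elim f 0

theorem notMem_of_ne_zero {N : ℕ} [NeZero N] {f : CuspForm (Gamma0 N) 2} (hf : f ≠ 0) :
    N ∉ zeroLevels := fun h => hf (eq_zero_of_mem h f)

theorem notMem_of_exists {N : ℕ} [NeZero N] (h : ∃ f : CuspForm (Gamma0 N) 2, f ≠ 0) :
    N ∉ zeroLevels := h.elim fun _ hf => notMem_of_ne_zero hf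

/-- A level dividing a level of genus zero has genus zero. -/
theorem mem_of_dvd {M N : ℕ} (h : M ∣ N) (hN : N ∈ zeroLevels) : M ∈ zeroLevels := by
  have h1 : ∀ N ∈ zeroLevels, ∀ M ∈ Nat.divisors N, M ∈ zeroLevels := by decide +kernel
  have h2 : N ≠ 0 := by
    rintro rfl
    revert hN
    decide
  exact h1 N hN M (Nat.mem_divisors.2 ⟨h, h2⟩)

theorem eleven_le_of_notMem {N : ℕ} [NeZero N] (hN : N ∉ zeroLevels) : 11 ≤ N := by
  by_contra h
  have h1 : ∀ N ∈ Finset.range 11, N ≠ 0 → N ∈ zeroLevels := by decide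
  exact hN (h1 N (Finset.mem_range.2 (by omega)) (NeZero.ne N))

/-- `S₂(Γ₀(N)) ≠ 0` outside the list. -/
theorem exists_ne_zero {N : ℕ} [NeZero N] (hN : N ∉ zeroLevels) :
    ∃ f : CuspForm (Gamma0 N) 2, f ≠ 0 := by
  by_contra h
  push Not at h
  have : Subsingleton (CuspForm (Gamma0 N) 2) := ⟨fun f g => (h f).trans (h g).symm⟩
  exact hN ((finrank_eq_zero_iff N).1 Module.finrank_zero_of_subsingleton)

/-- Squarefree levels of genus zero. -/
theorem squarefree_of_mem {N : ℕ} (hN : N ∈ zeroLevels) (hs : Squarefree N) :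
    N ∈ [1, 2, 3, 5, 6, 7, 10, 13] := by
  revert hs
  revert N
  decide +kernel

end Fermat.Agent.Cor
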