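import Fermat.Agent.Classic.Level.Final
import Fermat.Agent.Corollaries.GenusZero
import Fermat.Prelude.Def_WeierstrassCurve_ConductorLevel

/-!
# Levels of semistable elliptic curves over `ℚ`

A semistable elliptic curve over `ℚ` is modular of level its conductor
(`Classic.exact_of_semistable`), so `S₂(Γ₀(N)) ≠ 0` for this level `N` and `X₀(N)` has positive
genus (`S20`).

* `exists_form_conductor`: the form of level the conductor;
* `conductorLevel_notMem`, `eleven_le_conductorLevel`: `N ∉ {1, 2, 3, 5, 6, 7, 10, 13}`, `N ≥ 11`;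
* `not_isUnit_Δ`: no Weierstrass equation over `ℤ` has discriminant `± 1` (Tate);
* `apOfModel_eq_of_conductorLevel_eq`: the traces of Frobenius of a semistable curve whose
  conductor is one of `11, 14, 15, 17, 19, 21` depend on the conductor only.
-/

set_option autoImplicit false

noncomputable section

open WeierstrassCurve CuspForm ModularFormClass CongruenceSubgroup UniqueFactorizationMonoid

namespace Fermat.Agent.Cor

variable {W : WeierstrassCurve ℤ}

/-- A squarefree number with the prime divisors of the discriminant is the conductor level. -/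
theorem eq_conductorLevel (hΔ : W.Δ ≠ 0) {N : ℕ} (hN : Squarefree N)
    (h : ∀ q : ℕ, q.Prime → (q ∣ N ↔ (q : ℤ) ∣ W.Δ)) : N = W.conductorLevel :=
  (Nat.Squarefree.ext_iff hN W.squarefree_conductorLevel).mpr fun q hq =>
    (h q hq).trans (W.prime_dvd_conductorLevel_iff hΔ hq).symm

/-- **Semistable elliptic curves are modular of level their conductor.** -/
theorem isModularModelOfLevel_conductor (hΔ : W.Δ ≠ 0) (hW : W.IsSemistableModel) :
    W.IsModularModelOfLevel W.conductorLevel := by
  obtain ⟨N, -, hN, hq, h⟩ := Classic.exact_of_semistable hΔ hW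
  rwa [eq_conductorLevel hΔ hN hq] at h

/-- The normalised eigenform of level the conductor, with the traces of Frobenius of the curve as
coefficients at all primes of good reduction. -/
theorem exists_form_conductor (hΔ : W.Δ ≠ 0) (hW : W.IsSemistableModel) :
    ∃ f : CuspForm (Gamma0 W.conductorLevel) 2, f.IsNormalizedEigenform ∧
      ∀ p : ℕ, p.Prime → W.IsGoodPrimeFor p → qCoeff ⇑f p = (W.apOfModel p : ℂ) := by
  obtain ⟨f, hf, h⟩ := isModularModelOfLevel_conductor hΔ hW
  exact ⟨f, hf, fun p hp hg =>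
    h p hp hg fun hd => hg ((W.prime_dvd_conductorLevel_iff hΔ hp).mp hd)⟩

theorem conductorLevel_notMem_zeroLevels (hΔ : W.Δ ≠ 0) (hW : W.IsSemistableModel) :
    W.conductorLevel ∉ zeroLevels := by
  obtain ⟨f, hf, -⟩ := exists_form_conductor hΔ hW
  exact notMem_of_ne_zero hf.ne_zero

/-- The modular curve `X₀(N)`, `N` the conductor, has positive genus. -/
theorem genusFormula_conductorLevel_pos (hΔ : W.Δ ≠ 0) (hW : W.IsSemistableModel) :
    0 < ModularCurve.genusFormula W.conductorLevel := by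
  have h1 : ModularCurve.genusFormula W.conductorLevel ≠ 0 := fun h =>
    conductorLevel_notMem_zeroLevels hΔ hW ((genusFormula_eq_zero_iff _).mp h)
  have h2 := S20.result W.conductorLevel
  rw [← h2] at h1 ⊢
  have h3 : Module.finrank ℂ (CuspForm (Gamma0 W.conductorLevel) 2) ≠ 0 := by exact_mod_cast h1
  exact_mod_cast Nat.pos_of_ne_zero h3

/-- The conductor of a semistable elliptic curve over `ℚ` is none of
`1, 2, 3, 5, 6, 7, 10, 13`. -/
theorem conductorLevel_notMem (hΔ : W.Δ ≠ 0) (hW : W.IsSemistableModel) :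
    W.conductorLevel ∉ ({1, 2, 3, 5, 6, 7, 10, 13} : Finset ℕ) := fun h => by
  refine conductorLevel_notMem_zeroLevels hΔ hW ?_
  revert h
  generalize W.conductorLevel = N
  revert N
  simp only [Finset.mem_insert, Finset.mem_singleton, zeroLevels]
  rintro N (rfl | rfl | rfl | rfl | rfl | rfl | rfl | rfl) <;> decide

/-- The conductor of a semistable elliptic curve over `ℚ` is at least `11`. -/
theorem eleven_le_conductorLevel (hΔ : W.Δ ≠ 0) (hW : W.IsSemistableModel) :
    11 ≤ W.conductorLevel :=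
  eleven_le_of_notMem (conductorLevel_notMem_zeroLevels hΔ hW)

/-- The discriminant of a Weierstrass equation over `ℤ` is not `± 1` (Tate). -/
theorem not_isUnit_Δ (W : WeierstrassCurve ℤ) : ¬ IsUnit W.Δ := fun h => by
  have hΔ : W.Δ ≠ 0 := h.ne_zero
  have hW : W.IsSemistableModel := fun p hp hd =>
    absurd (isUnit_of_dvd_unit hd h) (Nat.prime_iff_prime_int.mp hp).not_isUnit
  have h1 : W.conductorLevel = 1 := by
    rw [conductorLevel, Int.isUnit_iff_natAbs_eq.mp h, radical_one]
  have h2 := eleven_le_conductorLevel hΔ hW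
  omega

/-- A Weierstrass equation over `ℤ` has a prime of bad reduction. -/
theorem exists_prime_dvd_Δ (W : WeierstrassCurve ℤ) : ∃ q : ℕ, q.Prime ∧ (q : ℤ) ∣ W.Δ := by
  have h1 : W.Δ.natAbs ≠ 1 := fun h => not_isUnit_Δ W (Int.isUnit_iff_natAbs_eq.mpr h)
  exact ⟨_, Nat.minFac_prime h1, Int.natCast_dvd.mpr (Nat.minFac_dvd _)⟩

/-- If only one prime `q` divides the discriminant of a semistable curve, then `q = 11` or
`q ≥ 17`. -/
theorem eleven_or_le_of_unique (hΔ : W.Δ ≠ 0) (hW : W.IsSemistableModel) {q : ℕ}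
    (hq : q.Prime) (h : ∀ r : ℕ, r.Prime → (r : ℤ) ∣ W.Δ → r = q) :
    q = 11 ∨ 17 ≤ q := by
  have h1 : W.conductorLevel = q := by
    obtain ⟨r, hr, hrd⟩ := exists_prime_dvd_Δ W
    have hrq := h r hr hrd
    subst hrq
    refine ((eq_conductorLevel hΔ hr.squarefree) fun s hs => ?_).symm
    rw [Nat.prime_dvd_prime_iff_eq hs hr]
    exact ⟨fun hsr => hsr ▸ hrd, fun hsd => h s hs hsd⟩
  have h2 := eleven_le_conductorLevel hΔ hW
  have h3 := conductorLevel_notMem hΔ hW
  rw [h1] at h2 h3
  by_contra hc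
  push Not at hc
  obtain ⟨h4, h5⟩ := hc
  have h6 : q ≠ 13 := fun h => h3 (by rw [h]; decide)
  have h7 : q = 12 ∨ q = 14 ∨ q = 15 ∨ q = 16 := by omega
  rcases h7 with rfl | rfl | rfl | rfl <;> exact absurd hq (by decide)

/-- **Uniqueness of the isogeny class in genus one**: semistable curves of the same conductor `N`
with `dim S₂(Γ₀(N)) = 1` (`N = 11, 14, 15, 17, 19, 21`) have the same traces of Frobenius. -/
theorem apOfModel_eq_of_conductorLevel_eq {W' : WeierstrassCurve ℤ} (hΔ : W.Δ ≠ 0)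
    (hW : W.IsSemistableModel) (hΔ' : W'.Δ ≠ 0) (hW' : W'.IsSemistableModel)
    (h : W'.conductorLevel = W.conductorLevel) (h1 : W.conductorLevel ∈ oneLevels) {p : ℕ}
    (hp : p.Prime) (hg : W.IsGoodPrimeFor p) : W'.apOfModel p = W.apOfModel p := by
  obtain ⟨f, hf, hfp⟩ := exists_form_conductor hΔ hW
  have hg' : W'.IsGoodPrimeFor p := fun hd =>
    hg ((W.prime_dvd_conductorLevel_iff hΔ hp).mp
      (h ▸ (W'.prime_dvd_conductorLevel_iff hΔ' hp).mpr hd))
  obtain ⟨g, hgf, hgp⟩ : ∃ g : CuspForm (Gamma0 W.conductorLevel) 2, g.IsNormalizedEigenform ∧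
      qCoeff ⇑g p = (W'.apOfModel p : ℂ) := by
    obtain ⟨g, hg1, hg2⟩ := exists_form_conductor hΔ' hW'
    have key : ∀ (N : ℕ), W'.conductorLevel = N → ∃ g : CuspForm (Gamma0 N) 2,
        g.IsNormalizedEigenform ∧ qCoeff ⇑g p = (W'.apOfModel p : ℂ) := by
      rintro N rfl
      exact ⟨g, hg1, hg2 p hp hg'⟩
    exact key _ h
  have hfin : Module.finrank ℂ (CuspForm (Gamma0 W.conductorLevel) 2) = 1 :=
    (finrank_eq_one_iff _).mpr h1
  obtain ⟨c, hc⟩ := (finrank_eq_one_iff_of_nonzero' f hf.ne_zero).mp hfin g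
  have hc1 : c = 1 := by
    have h2 := hgf.qCoeff_one
    rw [← hc, FermatAgent.HeckeEigen.qCoeff_smul, hf.qCoeff_one, mul_one] at h2
    exact h2
  rw [hc1, one_smul] at hc
  have h3 : (W'.apOfModel p : ℂ) = (W.apOfModel p : ℂ) := by rw [← hgp, ← hc, hfp p hp hg]
  exact_mod_cast h3

/-- No elliptic curve over `ℚ` has an integral model with discriminant `± 1`. -/
theorem not_isUnit_Δ_of_isIntegralModelOf (E : WeierstrassCurve ℚ) :
    ¬ ∃ W : WeierstrassCurve ℤ, W.IsIntegralModelOf E ∧ IsUnit W.Δ :=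
  fun ⟨W, _, h⟩ => not_isUnit_Δ W h

end Fermat.Agent.Cor
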