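import Fermat.Agent.Corollaries.LevelLower
import Fermat.Agent.Corollaries.GenusZero

/-!
# The discriminant of a semistable elliptic curve over `ℚ` (K6)

Let `W` be a semistable integral model, `p` an odd prime with `W[p]` irreducible.  The levels of
genus zero `zeroLevels = [1, ..., 10, 12, 13, 16, 18, 25]` do not contain `serreLevel W p`, hence:

* `exists_prime_not_dvd_of_mem`: for `L ∈ zeroLevels` there is a prime `q ∤ L`, `q ∣ Δ`, with
  `p ∤ v_q(Δ)`;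
* `disc_ne_mul_pow`: `Δ ≠ n m^p` as soon as every prime divisor of `n` divides some
  `L ∈ zeroLevels`; in particular `Δ` is not a `p`-th power (`disc_ne_pow`), nor a `p`-th power
  times an integer of the form `± 2^a 3^b`, `± 2^a 5^b`, `± 7^a`, `± 13^a`;
* `not_irreducible_of_disc_eq`: the contrapositive.
-/

set_option autoImplicit false

namespace Fermat.Agent.Cor

open WeierstrassCurve CongruenceSubgroup

variable {W : WeierstrassCurve ℤ} {p : ℕ}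

theorem mem_serre_filter {W : WeierstrassCurve ℤ} (hΔ : W.Δ ≠ 0) {p q : ℕ} :
    q ∈ (W.Δ.natAbs.primeFactors.filter fun q => ¬ p ∣ padicValInt q W.Δ) ↔
      q.Prime ∧ (q : ℤ) ∣ W.Δ ∧ ¬ p ∣ padicValInt q W.Δ := by
  rw [Finset.mem_filter, Nat.mem_primeFactors, Int.natCast_dvd, and_assoc, and_assoc]
  have : W.Δ.natAbs ≠ 0 := Int.natAbs_ne_zero.mpr hΔ
  tauto

/-- A prime with `p ∤ v_q(Δ)` divides the discriminant. -/
theorem dvd_disc_of_not_dvd_val {q : ℕ} (h : ¬ p ∣ padicValInt q W.Δ) : (q : ℤ) ∣ W.Δ := by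
  by_contra hq
  rw [padicValInt.eq_zero_of_not_dvd hq] at h
  exact h (dvd_zero p)

/-- the product of distinct primes dividing `L` divides `L` -/
theorem prod_primes_dvd_of_forall {s : Finset ℕ} {L : ℕ} (hs : ∀ q ∈ s, q.Prime)
    (hL : ∀ q ∈ s, q ∣ L) : (∏ q ∈ s, q) ∣ L :=
  Finset.prod_primes_dvd L (fun q hq => (hs q hq).prime) hL

/-- **`serreLevel W p ∣ L`** if `p ∣ v_q(Δ)` for all primes `q ∤ L`. -/
theorem serreLevel_dvd_of_forall (hΔ : W.Δ ≠ 0) {L : ℕ}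
    (h : ∀ q : ℕ, q.Prime → ¬ q ∣ L → p ∣ padicValInt q W.Δ) : serreLevel W p ∣ L := by
  unfold serreLevel
  refine prod_primes_dvd_of_forall (fun q hq => ((mem_serre_filter hΔ).mp hq).1) fun q hq => ?_
  obtain ⟨hqp, -, hq3⟩ := (mem_serre_filter hΔ).mp hq
  by_contra hL
  exact hq3 (h q hqp hL)

/-- **K6.**  `W` semistable, `W[p]` irreducible, `L` a level of genus zero: there is a prime
`q ∤ L` with `p ∤ v_q(Δ)`. -/
theorem exists_prime_not_dvd_of_mem (hΔ : W.Δ ≠ 0) (hW : W.IsSemistableModel) (hp : p.Prime)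
    (hp2 : p ≠ 2) (hirr : W.ModRepIsIrreducible p) {L : ℕ} (hL : L ∈ zeroLevels) :
    ∃ q : ℕ, q.Prime ∧ (q : ℤ) ∣ W.Δ ∧ ¬ q ∣ L ∧ ¬ p ∣ padicValInt q W.Δ := by
  by_contra hcon
  push Not at hcon
  refine serreLevel_notMem hΔ hW hp hp2 hirr (mem_of_dvd (serreLevel_dvd_of_forall hΔ ?_) hL)
  intro q hq hqL
  by_contra hd
  exact hd (hcon q hq (dvd_disc_of_not_dvd_val hd) hqL)

/-- `v_q(n m^p) ≡ 0 mod p` for `q ∤ n` -/
theorem dvd_padicValInt_mul_pow {q : ℕ} (hq : q.Prime) {n m : ℤ} (hn : ¬ (q : ℤ) ∣ n)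
    (h0 : n * m ^ p ≠ 0) : p ∣ padicValInt q (n * m ^ p) := by
  have : Fact q.Prime := ⟨hq⟩
  have hn0 : n ≠ 0 := left_ne_zero_of_mul h0
  have hm0 : m ^ p ≠ 0 := right_ne_zero_of_mul h0
  rw [padicValInt.mul hn0 hm0, padicValInt.eq_zero_of_not_dvd hn, zero_add]
  by_cases hp : p = 0
  · subst hp
    simp
  · have hm : m ≠ 0 := fun h => hm0 (by rw [h, zero_pow hp])
    rw [padicValInt, Int.natAbs_pow, padicValNat.pow]
    exact dvd_mul_right _ _

/-- **The discriminant of a semistable curve with `W[p]` irreducible is not `n m^p`**, if every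
prime divisor of `n` divides a level `L` of genus zero. -/
theorem disc_ne_mul_pow (hΔ : W.Δ ≠ 0) (hW : W.IsSemistableModel) (hp : p.Prime)
    (hp2 : p ≠ 2) (hirr : W.ModRepIsIrreducible p) {L : ℕ} (hL : L ∈ zeroLevels) {n : ℤ}
    (hn : ∀ q : ℕ, q.Prime → (q : ℤ) ∣ n → q ∣ L) (m : ℤ) : W.Δ ≠ n * m ^ p := by
  intro h
  obtain ⟨q, hq, -, hqL, hqv⟩ := exists_prime_not_dvd_of_mem hΔ hW hp hp2 hirr hL
  apply hqv
  rw [h] at hΔ ⊢
  exact dvd_padicValInt_mul_pow hq (fun hd => hqL (hn q hq hd)) hΔ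

/-- The contrapositive: if `Δ = n m^p` with `n` supported on the primes of a level of genus zero,
then `W[p]` is reducible. -/
theorem not_irreducible_of_disc_eq (hΔ : W.Δ ≠ 0) (hW : W.IsSemistableModel) (hp : p.Prime)
    (hp2 : p ≠ 2) {L : ℕ} (hL : L ∈ zeroLevels) {n m : ℤ}
    (hn : ∀ q : ℕ, q.Prime → (q : ℤ) ∣ n → q ∣ L) (h : W.Δ = n * m ^ p) :
    ¬ W.ModRepIsIrreducible p := fun hirr =>
  disc_ne_mul_pow hΔ hW hp hp2 hirr hL hn m h

/-- The discriminant is not a `p`-th power (up to sign). -/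
theorem disc_ne_pow (hΔ : W.Δ ≠ 0) (hW : W.IsSemistableModel) (hp : p.Prime)
    (hp2 : p ≠ 2) (hirr : W.ModRepIsIrreducible p) (m : ℤ) : W.Δ ≠ m ^ p := by
  have h := disc_ne_mul_pow hΔ hW hp hp2 hirr (L := 1) (by decide) (n := 1)
    (fun q hq hd => by
      have h1 : (q : ℤ) ∣ ((1 : ℕ) : ℤ) := by simpa using hd
      exact Int.natCast_dvd_natCast.mp h1) m
  rwa [one_mul] at h

/-- prime divisors of `± l^a r^b` -/
theorem dvd_of_dvd_pow_mul_pow {l r a b q : ℕ} (hq : q.Prime) (h : (q : ℤ) ∣ (l : ℤ) ^ a * (r : ℤ) ^ b) : q ∣ l * r := by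
  have hq' : Prime (q : ℤ) := Nat.prime_iff_prime_int.mp hq
  rcases hq'.dvd_or_dvd h with h | h
  · have := hq'.dvd_of_dvd_pow h
    exact dvd_mul_of_dvd_left (Int.natCast_dvd_natCast.mp this) _
  · have := hq'.dvd_of_dvd_pow h
    exact dvd_mul_of_dvd_right (Int.natCast_dvd_natCast.mp this) _

/-- The discriminant is not `± 2^a 3^b m^p`. -/
theorem disc_ne_two_three (hΔ : W.Δ ≠ 0) (hW : W.IsSemistableModel) (hp : p.Prime)
    (hp2 : p ≠ 2) (hirr : W.ModRepIsIrreducible p) (a b : ℕ) (m : ℤ) :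
    W.Δ ≠ 2 ^ a * 3 ^ b * m ^ p :=
  disc_ne_mul_pow hΔ hW hp hp2 hirr (L := 2 * 3) (by decide)
    (fun _ hq hd => dvd_of_dvd_pow_mul_pow hq hd) m

/-- The discriminant is not `± 2^a 5^b m^p`. -/
theorem disc_ne_two_five (hΔ : W.Δ ≠ 0) (hW : W.IsSemistableModel) (hp : p.Prime)
    (hp2 : p ≠ 2) (hirr : W.ModRepIsIrreducible p) (a b : ℕ) (m : ℤ) :
    W.Δ ≠ 2 ^ a * 5 ^ b * m ^ p :=
  disc_ne_mul_pow hΔ hW hp hp2 hirr (L := 2 * 5) (by decide)
    (fun _ hq hd => dvd_of_dvd_pow_mul_pow hq hd) m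

/-- The discriminant is not `± l^a m^p` for `l = 2, 3, 5, 7, 13`. -/
theorem disc_ne_prime_pow (hΔ : W.Δ ≠ 0) (hW : W.IsSemistableModel) (hp : p.Prime)
    (hp2 : p ≠ 2) (hirr : W.ModRepIsIrreducible p) {l : ℕ} (hl : l ∈ [2, 3, 5, 7, 13]) (a : ℕ)
    (m : ℤ) : W.Δ ≠ (l : ℤ) ^ a * m ^ p := by
  have h1 : ∀ l ∈ [2, 3, 5, 7, 13], l ∈ zeroLevels ∧ l.Prime := by decide +kernel
  refine disc_ne_mul_pow hΔ hW hp hp2 hirr (h1 l hl).1 (fun q hq hd => ?_) m
  exact Int.natCast_dvd_natCast.mp ((Nat.prime_iff_prime_int.mp hq).dvd_of_dvd_pow hd)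

/-- **At least one prime `q = 11` or `q ≥ 17`, or two primes, occur in `Δ` with an exponent prime
to `p`**: if `q` is the only prime with `p ∤ v_q(Δ)`, then `q = 11` or `q ≥ 17`. -/
theorem only_prime (hΔ : W.Δ ≠ 0) (hW : W.IsSemistableModel) (hp : p.Prime)
    (hp2 : p ≠ 2) (hirr : W.ModRepIsIrreducible p) {q : ℕ}
    (h : ∀ r : ℕ, r.Prime → ¬ p ∣ padicValInt r W.Δ → r = q) : q = 11 ∨ 17 ≤ q := by
  obtain ⟨r, hr, -, -, hrv⟩ := exists_prime_not_dvd_of_mem hΔ hW hp hp2 hirr (L := 1) (by decide)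
  have hrq := h r hr hrv
  subst hrq
  by_contra hcon
  push Not at hcon
  have h1 : ∀ r ∈ Finset.range 17, r.Prime → r ≠ 11 → r ∈ zeroLevels := by decide +kernel
  obtain ⟨s, hs, -, hsr, hsv⟩ := exists_prime_not_dvd_of_mem hΔ hW hp hp2 hirr
    (h1 r (Finset.mem_range.mpr hcon.2) hr hcon.1)
  exact hsr (dvd_of_eq (h s hs hsv))

end Fermat.Agent.Cor
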