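import Mathlib
import Fermat.Prelude.Def_FLTPrelim_Modularity

/-!
# The global minimal Weierstrass model over `ℤ`

Every elliptic curve over `ℚ` has a Weierstrass equation over `ℤ` which is minimal at every prime
`p`, in Mathlib's sense over `ℤ_[p]` (`exists_globalMinimal`).  It is any integral equation with
`|Δ|` minimal: a local change of variables which improves the equation at `p` is integral
(`rst_mem`), and is approximated by `(p ^ k, r, s, t)` with integers `r, s, t`.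
-/

set_option autoImplicit false

noncomputable section

open WeierstrassCurve

namespace Fermat.Agent.Cor.MinModel

section Subring

variable {K : Type*} [Field K] (A : Subring K)

/-- All coefficients are in the subring `A`. -/
structure Coeffs (E : WeierstrassCurve K) : Prop where
  a₁ : E.a₁ ∈ A
  a₂ : E.a₂ ∈ A
  a₃ : E.a₃ ∈ A
  a₄ : E.a₄ ∈ A
  a₆ : E.a₆ ∈ A

variable {A} {E : WeierstrassCurve K} {C : VariableChange K}

theorem Coeffs.b₂ (h : Coeffs A E) : E.b₂ ∈ A := by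
  have h4 : (4 : K) ∈ A := by exact_mod_cast natCast_mem A 4
  exact add_mem (pow_mem h.a₁ 2) (mul_mem h4 h.a₂)

theorem Coeffs.b₄ (h : Coeffs A E) : E.b₄ ∈ A := by
  have h2 : (2 : K) ∈ A := by exact_mod_cast natCast_mem A 2
  exact add_mem (mul_mem h2 h.a₄) (mul_mem h.a₁ h.a₃)

theorem Coeffs.b₆ (h : Coeffs A E) : E.b₆ ∈ A := by
  have h4 : (4 : K) ∈ A := by exact_mod_cast natCast_mem A 4
  exact add_mem (pow_mem h.a₃ 2) (mul_mem h4 h.a₆)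

theorem Coeffs.b₈ (h : Coeffs A E) : E.b₈ ∈ A := by
  have h4 : (4 : K) ∈ A := by exact_mod_cast natCast_mem A 4
  exact sub_mem (add_mem (sub_mem (add_mem (mul_mem (pow_mem h.a₁ 2) h.a₆)
    (mul_mem (mul_mem h4 h.a₂) h.a₆)) (mul_mem (mul_mem h.a₁ h.a₃) h.a₄))
    (mul_mem h.a₂ (pow_mem h.a₃ 2))) (pow_mem h.a₄ 2)

theorem Coeffs.Δ (h : Coeffs A E) : E.Δ ∈ A := by
  have h8 : (8 : K) ∈ A := by exact_mod_cast natCast_mem A 8
  have h27 : (27 : K) ∈ A := by exact_mod_cast natCast_mem A 27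
  have h9 : (9 : K) ∈ A := by exact_mod_cast natCast_mem A 9
  exact add_mem (sub_mem (sub_mem (mul_mem (neg_mem (pow_mem h.b₂ 2)) h.b₈)
    (mul_mem h8 (pow_mem h.b₄ 3))) (mul_mem h27 (pow_mem h.b₆ 2)))
    (mul_mem (mul_mem (mul_mem h9 h.b₂) h.b₄) h.b₆)

/-- A change of variables over `A` keeps the coefficients in `A`. -/
theorem Coeffs.smul (h : Coeffs A E) (hu : ((C.u⁻¹ : Kˣ) : K) ∈ A) (hr : C.r ∈ A) (hs : C.s ∈ A)
    (ht : C.t ∈ A) : Coeffs A (C • E) := by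
  have h2 : (2 : K) ∈ A := by exact_mod_cast natCast_mem A 2
  have h3 : (3 : K) ∈ A := by exact_mod_cast natCast_mem A 3
  obtain ⟨a1, a2, a3, a4, a6⟩ := h
  constructor
  · exact mul_mem hu (add_mem a1 (mul_mem h2 hs))
  · exact mul_mem (pow_mem hu 2) (sub_mem (add_mem (sub_mem a2 (mul_mem hs a1))
      (mul_mem h3 hr)) (pow_mem hs 2))
  · exact mul_mem (pow_mem hu 3) (add_mem (add_mem a3 (mul_mem hr a1)) (mul_mem h2 ht))
  · exact mul_mem (pow_mem hu 4) (sub_mem (add_mem (sub_mem (add_mem (sub_mem a4 (mul_mem hs a3))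
      (mul_mem (mul_mem h2 hr) a2)) (mul_mem (add_mem ht (mul_mem hr hs)) a1))
      (mul_mem h3 (pow_mem hr 2))) (mul_mem (mul_mem h2 hs) ht))
  · exact mul_mem (pow_mem hu 6) (sub_mem (sub_mem (sub_mem (add_mem (add_mem (add_mem a6
      (mul_mem hr a4)) (mul_mem (pow_mem hr 2) a2)) (pow_mem hr 3)) (mul_mem ht a3))
      (pow_mem ht 2)) (mul_mem (mul_mem hr ht) a1))

/-- `x² + b x = c` with `b, c ∈ A`, a valuation ring. -/
theorem mem_of_quadratic (hA : ∀ x : K, x ∈ A ∨ x⁻¹ ∈ A) {x b c : K} (hb : b ∈ A) (hc : c ∈ A)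
    (h : x ^ 2 + b * x = c) : x ∈ A := by
  rcases hA x with hx | hx
  · exact hx
  · rcases eq_or_ne x 0 with rfl | h0
    · exact zero_mem A
    · have e : x = c * x⁻¹ - b := by
        field_simp
        linear_combination h
      rw [e]
      exact sub_mem (mul_mem hc hx) hb

/-- `x⁴ = b x² + c x + d` with `b, c, d ∈ A`, a valuation ring. -/
theorem mem_of_quartic (hA : ∀ x : K, x ∈ A ∨ x⁻¹ ∈ A) {x b c d : K} (hb : b ∈ A) (hc : c ∈ A)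
    (hd : d ∈ A) (h : x ^ 4 = b * x ^ 2 + c * x + d) : x ∈ A := by
  rcases hA x with hx | hx
  · exact hx
  · rcases eq_or_ne x 0 with rfl | h0
    · exact zero_mem A
    · have e : x = b * x⁻¹ + c * x⁻¹ ^ 2 + d * x⁻¹ ^ 3 := by
        field_simp
        linear_combination h
      rw [e]
      exact add_mem (add_mem (mul_mem hb hx) (mul_mem hc (pow_mem hx 2)))
        (mul_mem hd (pow_mem hx 3))

/-- **The change of variables between two integral equations is integral**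
(Silverman, VII.1.3). -/
theorem rst_mem (hA : ∀ x : K, x ∈ A ∨ x⁻¹ ∈ A) (hE : Coeffs A E) (hC : Coeffs A (C • E))
    (hu : (C.u : K) ∈ A) : C.r ∈ A ∧ C.s ∈ A ∧ C.t ∈ A := by
  have h2 : (2 : K) ∈ A := by exact_mod_cast natCast_mem A 2
  have h3 : (3 : K) ∈ A := by exact_mod_cast natCast_mem A 3
  have hu0 : (C.u : K) ≠ 0 := C.u.ne_zero
  have hr : C.r ∈ A := by
    refine mem_of_quartic hA (b := E.b₄) (c := 2 * E.b₆ + C.u ^ 6 * (C • E).b₆)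
      (d := E.b₈ - C.u ^ 8 * (C • E).b₈) hE.b₄
      (add_mem (mul_mem h2 hE.b₆) (mul_mem (pow_mem hu 6) hC.b₆))
      (sub_mem hE.b₈ (mul_mem (pow_mem hu 8) hC.b₈)) ?_
    rw [variableChange_b₆, variableChange_b₈, Units.val_inv_eq_inv_val]
    field_simp
    ring
  have hs : C.s ∈ A := by
    refine mem_of_quadratic hA (b := E.a₁) (c := E.a₂ + 3 * C.r - C.u ^ 2 * (C • E).a₂) hE.a₁
      (sub_mem (add_mem hE.a₂ (mul_mem h3 hr)) (mul_mem (pow_mem hu 2) hC.a₂)) ?_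
    rw [variableChange_a₂, Units.val_inv_eq_inv_val]
    field_simp
    ring
  have ht : C.t ∈ A := by
    refine mem_of_quadratic hA (b := E.a₃ + C.r * E.a₁)
      (c := E.a₆ + C.r * E.a₄ + C.r ^ 2 * E.a₂ + C.r ^ 3 - C.u ^ 6 * (C • E).a₆)
      (add_mem hE.a₃ (mul_mem hr hE.a₁))
      (sub_mem (add_mem (add_mem (add_mem hE.a₆ (mul_mem hr hE.a₄))
        (mul_mem (pow_mem hr 2) hE.a₂)) (pow_mem hr 3)) (mul_mem (pow_mem hu 6) hC.a₆)) ?_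
    rw [variableChange_a₆, Units.val_inv_eq_inv_val]
    field_simp
    ring
  exact ⟨hr, hs, ht⟩

/-- A change of variables close to `C` has the same effect, up to integral changes. -/
theorem coeffs_of_near {C₀ : VariableChange K} (hC : Coeffs A (C • E))
    (hu : (C.u : K) * ((C₀.u⁻¹ : Kˣ) : K) ∈ A)
    (hr : (C₀.r - C.r) * ((C.u⁻¹ : Kˣ) : K) ^ 3 ∈ A)
    (hs : (C₀.s - C.s) * ((C.u⁻¹ : Kˣ) : K) ^ 3 ∈ A)
    (ht : (C₀.t - C.t) * ((C.u⁻¹ : Kˣ) : K) ^ 3 ∈ A)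
    (hu' : (C.u : K) ∈ A) (hs' : C.s ∈ A) : Coeffs A (C₀ • E) := by
  set D : VariableChange K := ⟨C₀.u * C.u⁻¹, (C₀.r - C.r) * ((C.u⁻¹ : Kˣ) : K) ^ 2,
    (C₀.s - C.s) * ((C.u⁻¹ : Kˣ) : K),
    (C₀.t - C.t - (C₀.r - C.r) * C.s) * ((C.u⁻¹ : Kˣ) : K) ^ 3⟩ with hD
  have hu0 : (C.u : K) ≠ 0 := C.u.ne_zero
  have e : C₀ = D * C := by
    rw [VariableChange.mul_def, hD]
    ext
    · simp
    · simp only [Units.val_inv_eq_inv_val]
      field_simp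
      ring
    · simp only [Units.val_inv_eq_inv_val]
      field_simp
      ring
    · simp only [Units.val_inv_eq_inv_val]
      field_simp
      ring
  rw [e, mul_smul]
  refine hC.smul ?_ ?_ ?_ ?_
  · have : ((D.u⁻¹ : Kˣ) : K) = (C.u : K) * ((C₀.u⁻¹ : Kˣ) : K) := by
      rw [hD]
      simp
    rw [this]
    exact hu
  · have : D.r = (C₀.r - C.r) * ((C.u⁻¹ : Kˣ) : K) ^ 3 * C.u := by
      simp only [hD, Units.val_inv_eq_inv_val]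
      field_simp
    rw [this]
    exact mul_mem hr hu'
  · have : D.s = (C₀.s - C.s) * ((C.u⁻¹ : Kˣ) : K) ^ 3 * C.u ^ 2 := by
      simp only [hD, Units.val_inv_eq_inv_val]
      field_simp
    rw [this]
    exact mul_mem hs (pow_mem hu' 2)
  · have : D.t = (C₀.t - C.t) * ((C.u⁻¹ : Kˣ) : K) ^ 3 -
        (C₀.r - C.r) * ((C.u⁻¹ : Kˣ) : K) ^ 3 * C.s := by
      simp only [hD]
      ring
    rw [this]
    exact sub_mem ht (mul_mem hr hs')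

end Subring

/-! ### Approximation -/

section Padic

variable {p : ℕ} [hp : Fact p.Prime]

theorem mem_subring_iff {x : ℚ_[p]} : x ∈ PadicInt.subring p ↔ ‖x‖ ≤ 1 := Iff.rfl

theorem mem_or_inv_mem (x : ℚ_[p]) : x ∈ PadicInt.subring p ∨ x⁻¹ ∈ PadicInt.subring p := by
  rw [mem_subring_iff, mem_subring_iff, norm_inv]
  rcases le_total ‖x‖ 1 with h | h
  · exact Or.inl h
  · exact Or.inr (inv_le_one_of_one_le₀ h)

/-- integers are dense in `ℤ_p`. -/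
theorem exists_int_near {x : ℚ_[p]} (hx : ‖x‖ ≤ 1) (n : ℕ) :
    ∃ a : ℤ, ‖(a : ℚ_[p]) - x‖ ≤ (p : ℝ) ^ (-n : ℤ) := by
  obtain ⟨z, hz⟩ : ∃ z : ℤ_[p], (z : ℚ_[p]) = x := ⟨⟨x, hx⟩, rfl⟩
  refine ⟨(z.appr n : ℕ), ?_⟩
  have h1 := PadicInt.appr_spec n z
  rw [← PadicInt.norm_le_pow_iff_mem_span_pow] at h1
  rw [← norm_neg, neg_sub, ← hz]
  have e : ((z - (z.appr n : ℕ) : ℤ_[p]) : ℚ_[p]) = (z : ℚ_[p]) - ((z.appr n : ℕ) : ℤ) := by
    push_cast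
    rfl
  rw [← e]
  exact h1

/-- `W` over `ℚ_p`. -/
abbrev loc (p : ℕ) [Fact p.Prime] (W : WeierstrassCurve ℤ) : WeierstrassCurve ℚ_[p] :=
  W.map (Int.castRingHom ℚ_[p])

theorem coeffs_loc (W : WeierstrassCurve ℤ) : Coeffs (PadicInt.subring p) (loc p W) := by
  constructor <;> exact Padic.norm_int_le_one _

/-- divisibility from integrality. -/
theorem exists_of_norm_le {k n : ℕ} {m : ℤ}
    (h : ‖(((p : ℚ_[p]) ^ k)⁻¹) ^ n * (m : ℚ_[p])‖ ≤ 1) : ∃ c : ℤ, m = ((p : ℤ) ^ k) ^ n * c := by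
  have hp0 : (0 : ℝ) < p := by exact_mod_cast hp.out.pos
  have h1 : ‖(m : ℚ_[p])‖ ≤ (p : ℝ) ^ (-(k * n : ℕ) : ℤ) := by
    rw [norm_mul, norm_pow, norm_inv, norm_pow, Padic.norm_p] at h
    rw [zpow_neg, zpow_natCast]
    have h2 : ((((p : ℝ)⁻¹ ^ k)⁻¹) ^ n) = (p : ℝ) ^ (k * n) := by
      rw [inv_pow (p : ℝ) k, inv_inv, pow_mul]
    rw [h2] at h
    have h3 : (0 : ℝ) < (p : ℝ) ^ (k * n) := by positivity
    rw [← one_div, le_div_iff₀ h3, mul_comm]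
    exact h
  obtain ⟨c, hc⟩ := (Padic.norm_int_le_pow_iff_dvd m (k * n)).mp h1
  exact ⟨c, by rw [hc, pow_mul]⟩

/-- **Improving an integral equation at `p`.** -/
theorem exists_improve (W : WeierstrassCurve ℤ) {C : VariableChange ℚ_[p]}
    (hC : Coeffs (PadicInt.subring p) (C • loc p W)) (hu : ‖(C.u : ℚ_[p])‖ < 1) :
    ∃ (W' : WeierstrassCurve ℤ) (k : ℕ) (C₀ : VariableChange ℚ), 0 < k ∧
      C₀ • W.map (Int.castRingHom ℚ) = W'.map (Int.castRingHom ℚ) ∧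
      W.Δ = ((p : ℤ) ^ k) ^ 12 * W'.Δ := by
  have hp0 : (0 : ℝ) < p := by exact_mod_cast hp.out.pos
  have hp1 : (1 : ℝ) < p := by exact_mod_cast hp.out.one_lt
  have hpK : (p : ℚ_[p]) ≠ 0 := by exact_mod_cast hp.out.ne_zero
  have hpQ : (p : ℚ) ≠ 0 := by exact_mod_cast hp.out.ne_zero
  have hu0 : (C.u : ℚ_[p]) ≠ 0 := C.u.ne_zero
  have hn := Padic.norm_eq_zpow_neg_valuation hu0
  obtain ⟨k, hk⟩ : ∃ k : ℕ, (C.u : ℚ_[p]).valuation = k := by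
    refine ⟨(C.u : ℚ_[p]).valuation.toNat, (Int.toNat_of_nonneg ?_).symm⟩
    by_contra hneg
    push Not at hneg
    rw [hn] at hu
    exact absurd hu (not_lt.mpr (one_le_zpow₀ hp1.le (by omega)))
  rw [hk] at hn
  have hk0 : 0 < k := by
    rcases Nat.eq_zero_or_pos k with rfl | h
    · rw [hn] at hu
      simp at hu
    · exact h
  obtain ⟨hr, hs, ht⟩ := rst_mem mem_or_inv_mem (coeffs_loc W) hC
    (mem_subring_iff.mpr hu.le)
  obtain ⟨r₀, hr₀⟩ := exists_int_near (mem_subring_iff.mp hr) (3 * k)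
  obtain ⟨s₀, hs₀⟩ := exists_int_near (mem_subring_iff.mp hs) (3 * k)
  obtain ⟨t₀, ht₀⟩ := exists_int_near (mem_subring_iff.mp ht) (3 * k)
  have hnear : ∀ x : ℚ_[p], ‖x‖ ≤ (p : ℝ) ^ (-(3 * k : ℕ) : ℤ) →
      x * (((C.u)⁻¹ : (ℚ_[p])ˣ) : ℚ_[p]) ^ 3 ∈ PadicInt.subring p := by
    intro x hx
    rw [mem_subring_iff, norm_mul, norm_pow, Units.val_inv_eq_inv_val, norm_inv, hn]
    rw [zpow_neg, zpow_natCast] at hx
    rw [zpow_neg, zpow_natCast, inv_inv, ← pow_mul, mul_comm k 3]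
    have h3 : (0 : ℝ) < (p : ℝ) ^ (3 * k) := by positivity
    calc ‖x‖ * (p : ℝ) ^ (3 * k) ≤ ((p : ℝ) ^ (3 * k))⁻¹ * (p : ℝ) ^ (3 * k) :=
          mul_le_mul_of_nonneg_right hx h3.le
      _ = 1 := inv_mul_cancel₀ h3.ne'
  set C₁ : VariableChange ℚ_[p] := ⟨Units.mk0 ((p : ℚ_[p]) ^ k) (pow_ne_zero _ hpK), r₀, s₀, t₀⟩
    with hC₁
  have hcoef : Coeffs (PadicInt.subring p) (C₁ • loc p W) := by
    refine coeffs_of_near hC ?_ (hnear _ hr₀) (hnear _ hs₀) (hnear _ ht₀)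
      (mem_subring_iff.mpr hu.le) hs
    rw [mem_subring_iff, norm_mul, hn, Units.val_inv_eq_inv_val, norm_inv]
    show _ * ‖(p : ℚ_[p]) ^ k‖⁻¹ ≤ 1
    rw [norm_pow, Padic.norm_p, zpow_neg, zpow_natCast, inv_pow, inv_inv]
    exact (inv_mul_cancel₀ (by positivity)).le
  have hinv : (((C₁.u)⁻¹ : (ℚ_[p])ˣ) : ℚ_[p]) = ((p : ℚ_[p]) ^ k)⁻¹ := by
    rw [Units.val_inv_eq_inv_val]
    rfl
  obtain ⟨m₁, hm₁⟩ : ∃ c : ℤ, W.a₁ + 2 * s₀ = ((p : ℤ) ^ k) ^ 1 * c := by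
    refine exists_of_norm_le (p := p) ?_
    have h := mem_subring_iff.mp hcoef.a₁
    rw [variableChange_a₁, hinv] at h
    rw [pow_one]
    push_cast
    exact h
  obtain ⟨m₂, hm₂⟩ : ∃ c : ℤ, W.a₂ - s₀ * W.a₁ + 3 * r₀ - s₀ ^ 2 = ((p : ℤ) ^ k) ^ 2 * c := by
    refine exists_of_norm_le (p := p) ?_
    have h := mem_subring_iff.mp hcoef.a₂
    rw [variableChange_a₂, hinv] at h
    push_cast
    exact h
  obtain ⟨m₃, hm₃⟩ : ∃ c : ℤ, W.a₃ + r₀ * W.a₁ + 2 * t₀ = ((p : ℤ) ^ k) ^ 3 * c := by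
    refine exists_of_norm_le (p := p) ?_
    have h := mem_subring_iff.mp hcoef.a₃
    rw [variableChange_a₃, hinv] at h
    push_cast
    exact h
  obtain ⟨m₄, hm₄⟩ : ∃ c : ℤ, W.a₄ - s₀ * W.a₃ + 2 * r₀ * W.a₂ - (t₀ + r₀ * s₀) * W.a₁ +
      3 * r₀ ^ 2 - 2 * s₀ * t₀ = ((p : ℤ) ^ k) ^ 4 * c := by
    refine exists_of_norm_le (p := p) ?_
    have h := mem_subring_iff.mp hcoef.a₄
    rw [variableChange_a₄, hinv] at h
    push_cast
    exact h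
  obtain ⟨m₆, hm₆⟩ : ∃ c : ℤ, W.a₆ + r₀ * W.a₄ + r₀ ^ 2 * W.a₂ + r₀ ^ 3 - t₀ * W.a₃ - t₀ ^ 2 -
      r₀ * t₀ * W.a₁ = ((p : ℤ) ^ k) ^ 6 * c := by
    refine exists_of_norm_le (p := p) ?_
    have h := mem_subring_iff.mp hcoef.a₆
    rw [variableChange_a₆, hinv] at h
    push_cast
    exact h
  have hpk : (p : ℚ) ^ k ≠ 0 := pow_ne_zero _ hpQ
  set C₀ : VariableChange ℚ := ⟨Units.mk0 ((p : ℚ) ^ k) hpk, r₀, s₀, t₀⟩ with hC₀
  have hinv₀ : (((C₀.u)⁻¹ : ℚˣ) : ℚ) = ((p : ℚ) ^ k)⁻¹ := by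
    rw [Units.val_inv_eq_inv_val]
    rfl
  have hmain : C₀ • W.map (Int.castRingHom ℚ) =
      (⟨m₁, m₂, m₃, m₄, m₆⟩ : WeierstrassCurve ℤ).map (Int.castRingHom ℚ) := by
    have q₁ := congrArg (fun z : ℤ => (z : ℚ)) hm₁
    have q₂ := congrArg (fun z : ℤ => (z : ℚ)) hm₂
    have q₃ := congrArg (fun z : ℤ => (z : ℚ)) hm₃
    have q₄ := congrArg (fun z : ℤ => (z : ℚ)) hm₄
    have q₆ := congrArg (fun z : ℤ => (z : ℚ)) hm₆
    push_cast at q₁ q₂ q₃ q₄ q₆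
    ext
    · rw [variableChange_a₁, hinv₀]
      show ((p : ℚ) ^ k)⁻¹ * ((W.a₁ : ℚ) + 2 * s₀) = m₁
      rw [q₁, pow_one, inv_mul_cancel_left₀ hpk]
    · rw [variableChange_a₂, hinv₀]
      show ((p : ℚ) ^ k)⁻¹ ^ 2 * ((W.a₂ : ℚ) - s₀ * W.a₁ + 3 * r₀ - s₀ ^ 2) = m₂
      rw [q₂, inv_pow, inv_mul_cancel_left₀ (pow_ne_zero _ hpk)]
    · rw [variableChange_a₃, hinv₀]
      show ((p : ℚ) ^ k)⁻¹ ^ 3 * ((W.a₃ : ℚ) + r₀ * W.a₁ + 2 * t₀) = m₃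
      rw [q₃, inv_pow, inv_mul_cancel_left₀ (pow_ne_zero _ hpk)]
    · rw [variableChange_a₄, hinv₀]
      show ((p : ℚ) ^ k)⁻¹ ^ 4 * ((W.a₄ : ℚ) - s₀ * W.a₃ + 2 * r₀ * W.a₂ -
        (t₀ + r₀ * s₀) * W.a₁ + 3 * r₀ ^ 2 - 2 * s₀ * t₀) = m₄
      rw [q₄, inv_pow, inv_mul_cancel_left₀ (pow_ne_zero _ hpk)]
    · rw [variableChange_a₆, hinv₀]
      show ((p : ℚ) ^ k)⁻¹ ^ 6 * ((W.a₆ : ℚ) + r₀ * W.a₄ + r₀ ^ 2 * W.a₂ + r₀ ^ 3 -
        t₀ * W.a₃ - t₀ ^ 2 - r₀ * t₀ * W.a₁) = m₆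
      rw [q₆, inv_pow, inv_mul_cancel_left₀ (pow_ne_zero _ hpk)]
  refine ⟨⟨m₁, m₂, m₃, m₄, m₆⟩, k, C₀, hk0, hmain, ?_⟩
  have hΔ := congrArg WeierstrassCurve.Δ hmain
  rw [variableChange_Δ, hinv₀, map_Δ, map_Δ] at hΔ
  have h4 : ((W.Δ : ℤ) : ℚ) = (((p : ℤ) ^ k) ^ 12 *
      (⟨m₁, m₂, m₃, m₄, m₆⟩ : WeierstrassCurve ℤ).Δ : ℤ) := by
    push_cast
    change (((p : ℚ) ^ k)⁻¹) ^ 12 * ((W.Δ : ℤ) : ℚ) = _ at hΔ
    rw [inv_pow, inv_mul_eq_iff_eq_mul₀ (pow_ne_zero _ hpk)] at hΔ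
    exact hΔ
  exact_mod_cast h4

end Padic

/-! ### Minimal equations -/

/-- Every equation over `ℚ` has an integral model. -/
theorem exists_integralModel (E : WeierstrassCurve ℚ) :
    ∃ W : WeierstrassCurve ℤ, W.IsIntegralModelOf E := by
  have key : ∀ (a : ℚ) (e : ℤ), ∃ m : ℤ, ((a.den * e : ℤ) : ℚ) * a = m := fun a e =>
    ⟨e * a.num, by
      push_cast
      rw [mul_comm (a.den : ℚ), mul_assoc, mul_comm (a.den : ℚ) a, Rat.mul_den_eq_num]⟩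
  set d : ℤ := E.a₁.den * E.a₂.den * E.a₃.den * E.a₄.den * E.a₆.den with hd
  have hd0 : d ≠ 0 := by
    rw [hd]
    have h1 := E.a₁.den_ne_zero
    have h2 := E.a₂.den_ne_zero
    have h3 := E.a₃.den_ne_zero
    have h4 := E.a₄.den_ne_zero
    have h6 := E.a₆.den_ne_zero
    positivity
  have hdQ : (d : ℚ) ≠ 0 := by exact_mod_cast hd0
  obtain ⟨m₁, h₁⟩ := key E.a₁ (E.a₂.den * E.a₃.den * E.a₄.den * E.a₆.den)
  obtain ⟨m₂, h₂⟩ := key E.a₂ (E.a₁.den * E.a₃.den * E.a₄.den * E.a₆.den)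
  obtain ⟨m₃, h₃⟩ := key E.a₃ (E.a₁.den * E.a₂.den * E.a₄.den * E.a₆.den)
  obtain ⟨m₄, h₄⟩ := key E.a₄ (E.a₁.den * E.a₂.den * E.a₃.den * E.a₆.den)
  obtain ⟨m₆, h₆⟩ := key E.a₆ (E.a₁.den * E.a₂.den * E.a₃.den * E.a₄.den)
  have e₁ : (d : ℚ) * E.a₁ = m₁ := by rw [← h₁]; congr 2; rw [hd]; ring
  have e₂ : (d : ℚ) * E.a₂ = m₂ := by rw [← h₂]; congr 2; rw [hd]; ring
  have e₃ : (d : ℚ) * E.a₃ = m₃ := by rw [← h₃]; congr 2; rw [hd]; ring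
  have e₄ : (d : ℚ) * E.a₄ = m₄ := by rw [← h₄]; congr 2; rw [hd]; ring
  have e₆ : (d : ℚ) * E.a₆ = m₆ := by rw [← h₆]; congr 2; rw [hd]; ring
  refine ⟨⟨m₁, d * m₂, d ^ 2 * m₃, d ^ 3 * m₄, d ^ 5 * m₆⟩,
    ⟨(Units.mk0 (d : ℚ) hdQ)⁻¹, 0, 0, 0⟩, ?_⟩
  have hu : ((((Units.mk0 (d : ℚ) hdQ)⁻¹)⁻¹ : ℚˣ) : ℚ) = d := by rw [inv_inv]; rfl
  ext
  · rw [variableChange_a₁, hu]
    show (d : ℚ) * (E.a₁ + 2 * 0) = ((m₁ : ℤ) : ℚ)
    rw [← e₁]; ring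
  · rw [variableChange_a₂, hu]
    show (d : ℚ) ^ 2 * (E.a₂ - 0 * E.a₁ + 3 * 0 - 0 ^ 2) = ((d * m₂ : ℤ) : ℚ)
    push_cast
    rw [← e₂]; ring
  · rw [variableChange_a₃, hu]
    show (d : ℚ) ^ 3 * (E.a₃ + 0 * E.a₁ + 2 * 0) = ((d ^ 2 * m₃ : ℤ) : ℚ)
    push_cast
    rw [← e₃]; ring
  · rw [variableChange_a₄, hu]
    show (d : ℚ) ^ 4 * (E.a₄ - 0 * E.a₃ + 2 * 0 * E.a₂ - (0 + 0 * 0) * E.a₁ + 3 * 0 ^ 2 -
      2 * 0 * 0) = ((d ^ 3 * m₄ : ℤ) : ℚ)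
    push_cast
    rw [← e₄]; ring
  · rw [variableChange_a₆, hu]
    show (d : ℚ) ^ 6 * (E.a₆ + 0 * E.a₄ + 0 ^ 2 * E.a₂ + 0 ^ 3 - 0 * E.a₃ - 0 ^ 2 -
      0 * 0 * E.a₁) = ((d ^ 5 * m₆ : ℤ) : ℚ)
    push_cast
    rw [← e₆]; ring

theorem Δ_ne_zero_of_model {E : WeierstrassCurve ℚ} (hE : E.Δ ≠ 0) {W : WeierstrassCurve ℤ}
    (hW : W.IsIntegralModelOf E) : W.Δ ≠ 0 := by
  obtain ⟨C, hC⟩ := hW
  have h := congrArg WeierstrassCurve.Δ hC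
  rw [variableChange_Δ, map_Δ] at h
  intro h0
  rw [h0, map_zero] at h
  exact (mul_ne_zero (pow_ne_zero _ (Units.ne_zero _)) hE) h

/-- `W` is an integral model of `E` with minimal `|Δ|`. -/
def IsDiscMinimal (W : WeierstrassCurve ℤ) (E : WeierstrassCurve ℚ) : Prop :=
  W.IsIntegralModelOf E ∧ ∀ W' : WeierstrassCurve ℤ, W'.IsIntegralModelOf E →
    W.Δ.natAbs ≤ W'.Δ.natAbs

theorem exists_isDiscMinimal (E : WeierstrassCurve ℚ) : ∃ W, IsDiscMinimal W E := by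
  classical
  have hex : ∃ n : ℕ, ∃ W : WeierstrassCurve ℤ, W.IsIntegralModelOf E ∧ W.Δ.natAbs = n := by
    obtain ⟨W, hW⟩ := exists_integralModel E
    exact ⟨_, W, hW, rfl⟩
  obtain ⟨W, hW, hn⟩ := Nat.find_spec hex
  exact ⟨W, hW, fun W' hW' => hn ▸ Nat.find_min' hex ⟨W', hW', rfl⟩⟩

variable {p : ℕ} [hp : Fact p.Prime]

/-- A `p`-integral equation is obtained with `‖u‖ ≥ 1`. -/
theorem IsDiscMinimal.one_le_norm {W : WeierstrassCurve ℤ} {E : WeierstrassCurve ℚ}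
    (hE : E.Δ ≠ 0) (h : IsDiscMinimal W E) {C : VariableChange ℚ_[p]}
    (hC : Coeffs (PadicInt.subring p) (C • loc p W)) : 1 ≤ ‖(C.u : ℚ_[p])‖ := by
  by_contra hlt
  push Not at hlt
  obtain ⟨W', k, C₀, hk, hC₀, hΔ⟩ := exists_improve W hC hlt
  obtain ⟨⟨C₁, hC₁⟩, hmin⟩ := h
  have hW' : W'.IsIntegralModelOf E := ⟨C₀ * C₁, by rw [mul_smul, hC₁, hC₀]⟩
  have h1 := hmin W' hW'
  have h2 : W'.Δ.natAbs ≠ 0 := Int.natAbs_ne_zero.mpr (Δ_ne_zero_of_model hE hW')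
  have h3 : W.Δ.natAbs = (p ^ k) ^ 12 * W'.Δ.natAbs := by
    rw [hΔ, Int.natAbs_mul, Int.natAbs_pow, Int.natAbs_pow, Int.natAbs_natCast]
  have h4 : 1 < (p ^ k) ^ 12 := by
    rw [← pow_mul]
    exact Nat.one_lt_pow (by omega) hp.out.one_lt
  rw [h3] at h1
  have h5 : (p ^ k) ^ 12 * W'.Δ.natAbs ≤ 1 * W'.Δ.natAbs := by rwa [one_mul]
  have h6 := Nat.le_of_mul_le_mul_right h5 (Nat.pos_of_ne_zero h2)
  omega

theorem coeffs_of_isIntegral {F : WeierstrassCurve ℚ_[p]} (h : F.IsIntegral ℤ_[p]) :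
    Coeffs (PadicInt.subring p) F := by
  obtain ⟨F₀, rfl⟩ := h.integral
  constructor
  · exact F₀.a₁.2
  · exact F₀.a₂.2
  · exact F₀.a₃.2
  · exact F₀.a₄.2
  · exact F₀.a₆.2

instance isIntegral_loc (W : WeierstrassCurve ℤ) : (loc p W).IsIntegral ℤ_[p] := by
  refine ⟨W.map (Int.castRingHom ℤ_[p]), ?_⟩
  ext <;> exact (PadicInt.coe_intCast _).symm

open IsDedekindDomain.HeightOneSpectrum in
theorem valuation_inv_u_le {W : WeierstrassCurve ℤ} {E : WeierstrassCurve ℚ} (hE : E.Δ ≠ 0)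
    (h : IsDiscMinimal W E) {C : VariableChange ℚ_[p]}
    (hC : (C • loc p W).IsIntegral ℤ_[p]) :
    valuation ℚ_[p] (IsDiscreteValuationRing.maximalIdeal ℤ_[p])
      (((C.u)⁻¹ : (ℚ_[p])ˣ) : ℚ_[p]) ≤ 1 := by
  have h1 := h.one_le_norm hE (coeffs_of_isIntegral hC)
  have h2 : ‖(((C.u)⁻¹ : (ℚ_[p])ˣ) : ℚ_[p])‖ ≤ 1 := by
    rw [Units.val_inv_eq_inv_val, norm_inv]
    exact inv_le_one_of_one_le₀ h1
  exact valuation_le_one (IsDiscreteValuationRing.maximalIdeal ℤ_[p])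
    (⟨(((C.u)⁻¹ : (ℚ_[p])ˣ) : ℚ_[p]), h2⟩ : ℤ_[p])

open IsDedekindDomain.HeightOneSpectrum in
/-- **An integral equation with `|Δ|` minimal is minimal at every prime.** -/
theorem IsDiscMinimal.isMinimal {W : WeierstrassCurve ℤ} {E : WeierstrassCurve ℚ}
    (hE : E.Δ ≠ 0) (h : IsDiscMinimal W E) : (loc p W).IsMinimal ℤ_[p] := by
  refine ⟨⟨?_, fun C hC _ => ?_⟩⟩
  · show ((1 : VariableChange ℚ_[p]) • loc p W).IsIntegral ℤ_[p]
    rw [one_smul]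
    infer_instance
  · have hC' : (C • loc p W).IsIntegral ℤ_[p] := hC
    show valuation_Δ_aux ℤ_[p] (C • loc p W) ≤
      valuation_Δ_aux ℤ_[p] ((1 : VariableChange ℚ_[p]) • loc p W)
    rw [one_smul, ← Subtype.coe_le_coe, valuation_Δ_aux_eq_of_isIntegral,
      valuation_Δ_aux_eq_of_isIntegral, variableChange_Δ, map_mul, map_pow]
    exact mul_le_of_le_one_left' (pow_le_one' (valuation_inv_u_le hE h hC') 12)

open IsDedekindDomain.HeightOneSpectrum in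
/-- Good reduction is read off from the minimal equation. -/
theorem IsDiscMinimal.not_dvd {W : WeierstrassCurve ℤ} {E : WeierstrassCurve ℚ}
    (hE : E.Δ ≠ 0) (h : IsDiscMinimal W E)
    (hg : ((E.map (algebraMap ℚ ℚ_[p])).minimal ℤ_[p]).HasGoodReduction ℤ_[p]) :
    ¬ (p : ℤ) ∣ W.Δ := by
  obtain ⟨C₁, hC₁⟩ := h.1
  set C₂ := ((E.map (algebraMap ℚ ℚ_[p])).exists_isMinimal ℤ_[p]).choose with hC₂
  have hmin : (E.map (algebraMap ℚ ℚ_[p])).minimal ℤ_[p] = C₂ • E.map (algebraMap ℚ ℚ_[p]) := rfl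
  have hloc : loc p W = C₁.map (algebraMap ℚ ℚ_[p]) • E.map (algebraMap ℚ ℚ_[p]) := by
    rw [map_variableChange, hC₁, map_map]
    congr 1
  have hC : (C₂ * (C₁.map (algebraMap ℚ ℚ_[p]))⁻¹) • loc p W =
      (E.map (algebraMap ℚ ℚ_[p])).minimal ℤ_[p] := by
    rw [hloc, ← mul_smul, mul_assoc, inv_mul_cancel, mul_one, hmin]
  set C := C₂ * (C₁.map (algebraMap ℚ ℚ_[p]))⁻¹
  have hint : (C • loc p W).IsIntegral ℤ_[p] := by rw [hC]; infer_instance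
  have hu := valuation_inv_u_le hE h hint
  have h1 := hg.goodReduction
  rw [← hC, variableChange_Δ, map_mul, map_pow] at h1
  have h2 : valuation ℚ_[p] (IsDiscreteValuationRing.maximalIdeal ℤ_[p]) (loc p W).Δ ≤ 1 := by
    obtain ⟨r, hr⟩ := Δ_integral_of_isIntegral ℤ_[p] (loc p W)
    rw [← hr]
    exact valuation_le_one _ _
  intro hd
  have h3 : valuation ℚ_[p] (IsDiscreteValuationRing.maximalIdeal ℤ_[p]) (loc p W).Δ < 1 := by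
    have e : (loc p W).Δ = algebraMap ℤ_[p] ℚ_[p] (W.Δ : ℤ_[p]) := by
      rw [map_Δ]
      exact (PadicInt.coe_intCast _).symm
    rw [e, valuation_lt_one_iff_mem]
    show (W.Δ : ℤ_[p]) ∈ IsLocalRing.maximalIdeal ℤ_[p]
    rw [IsLocalRing.mem_maximalIdeal, PadicInt.mem_nonunits]
    exact (PadicInt.norm_int_lt_one_iff_dvd W.Δ).mpr hd
  have h4 : valuation ℚ_[p] (IsDiscreteValuationRing.maximalIdeal ℤ_[p])
      (((C.u)⁻¹ : (ℚ_[p])ˣ) : ℚ_[p]) ^ 12 *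
        valuation ℚ_[p] (IsDiscreteValuationRing.maximalIdeal ℤ_[p]) (loc p W).Δ < 1 :=
    (mul_le_of_le_one_left' (pow_le_one' hu 12)).trans_lt h3
  exact h4.ne h1

/-- **The global minimal model** (Néron, Tate): every elliptic curve over `ℚ` has a Weierstrass
equation over `ℤ` which is minimal at every prime. -/
theorem exists_globalMinimal (E : WeierstrassCurve ℚ) (hE : E.Δ ≠ 0) :
    ∃ W : WeierstrassCurve ℤ, W.IsIntegralModelOf E ∧ W.Δ ≠ 0 ∧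
      ∀ (p : ℕ) [Fact p.Prime], (W.map (Int.castRingHom ℚ_[p])).IsMinimal ℤ_[p] := by
  obtain ⟨W, hW⟩ := exists_isDiscMinimal E
  exact ⟨W, hW.1, Δ_ne_zero_of_model hE hW.1, fun p _ => hW.isMinimal hE⟩

end Fermat.Agent.Cor.MinModel
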