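import Fermat.Agent.S01
import Mathlib.NumberTheory.FLT.Basic
import Mathlib.Analysis.SpecialFunctions.Pow.Real
import Mathlib.FieldTheory.Minpoly.Field
import Mathlib.FieldTheory.Separable
import Mathlib.Analysis.Complex.Polynomial.Basic

/-!
# Classical reformulations of Fermat's Last Theorem (helper34)

* `fermatLastTheorem : FermatLastTheorem` (Mathlib's proposition), the same over `ℤ` and `ℚ`;
* `fermatCurve_iff`, `fermatCurve_even`, `fermatCurve_odd`: the rational points of the Fermat curves;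
* `fermat_zpow`: integer exponents `m` with `3 ≤ |m|`;
* `fermat_rat_exponent_iff`: **Fermat's Last Theorem for rational exponents** (Lenstra;
  Bennett, Glass, Székely): `a ^ r + b ^ r = c ^ r` has a solution in positive rational numbers (or
  in positive integers) if and only if the numerator of `r` is `±1` or `±2`.
-/

set_option autoImplicit false

namespace Fermat.Agent.Cor

open Polynomial

/-! ### Integral exponents -/

/-- **Fermat's Last Theorem**, Mathlib's formulation. -/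
theorem fermatLastTheorem : FermatLastTheorem := fun n hn a b c ha hb hc =>
  S01.result n hn a b c (Nat.pos_of_ne_zero ha) (Nat.pos_of_ne_zero hb) (Nat.pos_of_ne_zero hc)

theorem fermatLastTheoremWith_nat {n : ℕ} (hn : 3 ≤ n) : FermatLastTheoremWith ℕ n :=
  fermatLastTheorem n hn

theorem fermatLastTheoremWith_int {n : ℕ} (hn : 3 ≤ n) : FermatLastTheoremWith ℤ n :=
  fermatLastTheoremFor_iff_int.mp (fermatLastTheorem n hn)

theorem fermatLastTheoremWith_rat {n : ℕ} (hn : 3 ≤ n) : FermatLastTheoremWith ℚ n :=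
  fermatLastTheoremFor_iff_rat.mp (fermatLastTheorem n hn)

/-- The integral solutions are trivial. -/
theorem mul_eq_zero_of_int {n : ℕ} (hn : 3 ≤ n) {a b c : ℤ} (h : a ^ n + b ^ n = c ^ n) :
    a * b * c = 0 := by
  by_contra h0
  obtain ⟨⟨ha, hb⟩, hc⟩ : (a ≠ 0 ∧ b ≠ 0) ∧ c ≠ 0 := by
    rwa [← mul_ne_zero_iff, ← mul_ne_zero_iff]
  exact fermatLastTheoremWith_int hn a b c ha hb hc h

/-- The rational solutions are trivial. -/
theorem mul_eq_zero_of_rat {n : ℕ} (hn : 3 ≤ n) {a b c : ℚ} (h : a ^ n + b ^ n = c ^ n) :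
    a * b * c = 0 := by
  by_contra h0
  obtain ⟨⟨ha, hb⟩, hc⟩ : (a ≠ 0 ∧ b ≠ 0) ∧ c ≠ 0 := by
    rwa [← mul_ne_zero_iff, ← mul_ne_zero_iff]
  exact fermatLastTheoremWith_rat hn a b c ha hb hc h

/-- **The rational points of the affine Fermat curve.** -/
theorem fermatCurve_iff {n : ℕ} (hn : 3 ≤ n) {x y : ℚ} :
    x ^ n + y ^ n = 1 ↔ (x = 0 ∧ y ^ n = 1) ∨ (x ^ n = 1 ∧ y = 0) := by
  have hn0 : n ≠ 0 := by omega
  constructor
  · intro h
    have h1 : x * y * 1 = 0 := mul_eq_zero_of_rat hn (by rw [h, one_pow])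
    rw [mul_one, mul_eq_zero] at h1
    rcases h1 with rfl | rfl
    · rw [zero_pow hn0, zero_add] at h
      exact Or.inl ⟨rfl, h⟩
    · rw [zero_pow hn0, add_zero] at h
      exact Or.inr ⟨h, rfl⟩
  · rintro (⟨rfl, h⟩ | ⟨h, rfl⟩)
    · rw [zero_pow hn0, zero_add, h]
    · rw [zero_pow hn0, add_zero, h]

theorem fermatCurve_even {n : ℕ} (hn : 3 ≤ n) (h2 : Even n) {x y : ℚ} :
    x ^ n + y ^ n = 1 ↔ (x = 0 ∧ (y = 1 ∨ y = -1)) ∨ ((x = 1 ∨ x = -1) ∧ y = 0) := by
  have h0 : ∀ z : ℚ, z ^ n = 1 ↔ z = 1 ∨ z = -1 := fun z => by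
    rw [pow_eq_one_iff_cases]
    have : n ≠ 0 := by omega
    tauto
  rw [fermatCurve_iff hn, h0, h0]

theorem fermatCurve_odd {n : ℕ} (hn : 3 ≤ n) (h2 : Odd n) {x y : ℚ} :
    x ^ n + y ^ n = 1 ↔ (x = 0 ∧ y = 1) ∨ (x = 1 ∧ y = 0) := by
  have h0 : ∀ z : ℚ, z ^ n = 1 ↔ z = 1 := fun z => by
    rw [pow_eq_one_iff_cases]
    have : n ≠ 0 := by omega
    have h3 : ¬ Even n := by rwa [Nat.not_even_iff_odd]
    tauto
  rw [fermatCurve_iff hn, h0, h0]

/-- **Integer exponents.** -/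
theorem fermat_zpow {m : ℤ} (hm : 3 ≤ |m|) {a b c : ℚ} (ha : a ≠ 0) (hb : b ≠ 0) (hc : c ≠ 0) :
    a ^ m + b ^ m ≠ c ^ m := by
  obtain ⟨n, rfl | rfl⟩ := m.eq_nat_or_neg
  · have hn : 3 ≤ n := by
      rw [abs_of_nonneg (by positivity)] at hm
      exact_mod_cast hm
    rw [zpow_natCast, zpow_natCast, zpow_natCast]
    exact fermatLastTheoremWith_rat hn a b c ha hb hc
  · have hn : 3 ≤ n := by
      rw [abs_neg, abs_of_nonneg (by positivity)] at hm
      exact_mod_cast hm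
    rw [← inv_zpow', ← inv_zpow', ← inv_zpow', zpow_natCast, zpow_natCast, zpow_natCast]
    exact fermatLastTheoremWith_rat hn _ _ _ (inv_ne_zero ha) (inv_ne_zero hb) (inv_ne_zero hc)

/-! ### Rational exponents -/

/-- If `α, β > 0`, `α + β = 1` and `α ^ m`, `β ^ m` are rational, then `α` is rational: every
conjugate of `α` lies on the circles `|z| = α` and `|1 - z| = 1 - α`, which touch in `α`. -/
theorem RatExp.exists_rat_of_pow {α β : ℝ} (hα : 0 < α) (hβ : 0 < β) (h1 : α + β = 1) {m : ℕ}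
    (hm : m ≠ 0) {r s : ℚ} (hr : α ^ m = r) (hs : β ^ m = s) : ∃ t : ℚ, α = t := by
  have hint : IsIntegral ℚ α := by
    refine ⟨X ^ m - C r, monic_X_pow_sub_C r hm, ?_⟩
    rw [eval₂_sub, eval₂_pow, eval₂_X, eval₂_C, hr]
    simp
  set p := minpoly ℚ α with hp
  have hroot : ∀ z : ℂ, aeval z p = 0 → z = α := by
    intro z hz
    have hd1 : p ∣ X ^ m - C r := minpoly.dvd ℚ α (by
      rw [map_sub, map_pow, aeval_X, aeval_C, hr]
      simp)
    have hd2 : p ∣ (1 - X) ^ m - C s := minpoly.dvd ℚ α (by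
      rw [map_sub, map_pow, map_sub, map_one, aeval_X, aeval_C, ← h1, add_sub_cancel_left, hs]
      simp)
    have e1 : z ^ m = ((α : ℂ)) ^ m := by
      obtain ⟨q, hq⟩ := hd1
      have h2 := congrArg (aeval z) hq
      rw [map_sub, map_pow, aeval_X, aeval_C, map_mul, hz, zero_mul, sub_eq_zero] at h2
      rw [h2, ← Complex.ofReal_pow, hr]
      simp
    have e2 : (1 - z) ^ m = ((β : ℂ)) ^ m := by
      obtain ⟨q, hq⟩ := hd2
      have h2 := congrArg (aeval z) hq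
      rw [map_sub, map_pow, map_sub, map_one, aeval_X, aeval_C, map_mul, hz, zero_mul,
        sub_eq_zero] at h2
      rw [h2, ← Complex.ofReal_pow, hs]
      simp
    have n1 : ‖z‖ = α := by
      have h2 := congrArg norm e1
      rw [norm_pow, norm_pow, Complex.norm_of_nonneg hα.le] at h2
      exact (pow_left_inj₀ (norm_nonneg _) hα.le hm).mp h2
    have n2 : ‖1 - z‖ = β := by
      have h2 := congrArg norm e2
      rw [norm_pow, norm_pow, Complex.norm_of_nonneg hβ.le] at h2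
      exact (pow_left_inj₀ (norm_nonneg _) hβ.le hm).mp h2
    have r1 : z.re ≤ α := (Complex.re_le_norm z).trans n1.le
    have r2 : 1 - z.re ≤ β := by
      have h2 := (Complex.re_le_norm (1 - z)).trans n2.le
      simpa using h2
    have r3 : z.re = α := le_antisymm r1 (by linarith)
    have i1 : z.im = 0 := by
      have h2 : z.re * z.re + z.im * z.im = α * α := by
        rw [← n1, ← Complex.normSq_apply, Complex.normSq_eq_norm_sq, sq]
      rw [r3] at h2
      exact mul_self_eq_zero.mp (by linarith)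
    exact Complex.ext (by simpa using r3) (by simpa using i1)
  have hirr : Irreducible p := minpoly.irreducible hint
  have hcard : Fintype.card (p.rootSet ℂ) = p.natDegree :=
    card_rootSet_eq_natDegree hirr.separable (IsAlgClosed.splits _)
  have hle : Fintype.card (p.rootSet ℂ) ≤ 1 := by
    rw [Fintype.card_le_one_iff]
    rintro ⟨x, hx⟩ ⟨y, hy⟩
    rw [mem_rootSet] at hx hy
    exact Subtype.ext ((hroot x hx.2).trans (hroot y hy.2).symm)
  have hdeg : p.natDegree = 1 := le_antisymm (hcard ▸ hle) hirr.natDegree_pos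
  obtain ⟨t, ht⟩ := minpoly.natDegree_eq_one_iff.mp hdeg
  exact ⟨t, by rw [← ht]; simp⟩

/-- `t ^ m = x ^ n`, `gcd(n, m) = 1`: `x` is an `m`-th power and `t` the `n`-th power of the root. -/
theorem RatExp.exists_root {t x : ℚ} (ht : 0 < t) (hx : 0 < x) {n : ℤ} {m : ℕ}
    (hc : IsCoprime n (m : ℤ)) (h : t ^ m = x ^ n) : ∃ u : ℚ, 0 < u ∧ x = u ^ m ∧ t = u ^ n := by
  obtain ⟨p, q, hpq⟩ := hc
  have h' : t ^ (m : ℤ) = x ^ n := by rw [zpow_natCast, h]
  refine ⟨t ^ p * x ^ q, mul_pos (zpow_pos ht _) (zpow_pos hx _), ?_, ?_⟩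
  · have e : (t ^ p * x ^ q) ^ m = (t ^ (m : ℤ)) ^ p * x ^ (q * m) := by
      rw [mul_pow, ← zpow_natCast, ← zpow_natCast, ← zpow_mul, ← zpow_mul, ← zpow_mul,
        mul_comm p (m : ℤ)]
    rw [e, h', ← zpow_mul, ← zpow_add₀ hx.ne', mul_comm n p, hpq, zpow_one]
  · have e : (t ^ p * x ^ q) ^ n = t ^ (p * n) * (x ^ n) ^ q := by
      rw [mul_zpow, ← zpow_mul, ← zpow_mul, ← zpow_mul, mul_comm q n]
    rw [e, ← h', ← zpow_mul, ← zpow_add₀ ht.ne', mul_comm (m : ℤ) q, hpq, zpow_one]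

theorem RatExp.isCoprime_num_den (r : ℚ) : IsCoprime r.num (r.den : ℤ) := by
  rw [Int.isCoprime_iff_gcd_eq_one, Int.gcd_def, Int.natAbs_natCast]
  exact r.reduced

/-- rational powers, as roots -/
theorem RatExp.rpow_pow_den {x : ℝ} (hx : 0 < x) (r : ℚ) :
    (x ^ (r : ℝ)) ^ r.den = x ^ r.num := by
  have h1 : (r : ℝ) * (r.den : ℝ) = (r.num : ℝ) := by
    have h3 : (r : ℝ) * (r.den : ℝ) = ((r * r.den : ℚ) : ℝ) := by push_cast; ring
    rw [h3, Rat.mul_den_eq_num]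
    push_cast
    rfl
  rw [← Real.rpow_natCast, ← Real.rpow_mul hx.le, h1, Real.rpow_intCast]

/-- `u ^ m` to the power `n / m`. -/
theorem RatExp.pow_rpow_rat {u : ℝ} (hu : 0 ≤ u) (r : ℚ) :
    ((u ^ r.den : ℝ)) ^ (r : ℝ) = u ^ r.num := by
  rw [← Real.rpow_natCast, ← Real.rpow_mul hu, ← Real.rpow_intCast]
  congr 1
  have h3 : (r.den : ℝ) * (r : ℝ) = ((r * r.den : ℚ) : ℝ) := by push_cast; ring
  rw [h3, Rat.mul_den_eq_num]
  push_cast
  rfl

/-- **Reduction of rational exponents to integral exponents**: every solution of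
`a ^ r + b ^ r = c ^ r` (`r = n / m` in lowest terms) in positive rational numbers is
`a = c u ^ m`, `b = c v ^ m` with rational numbers `u, v` with `u ^ n + v ^ n = 1`. -/
theorem rpow_add_rpow_eq_iff (r : ℚ) {a b c : ℚ} (ha : 0 < a) (hb : 0 < b) (hc : 0 < c) :
    (a : ℝ) ^ (r : ℝ) + (b : ℝ) ^ (r : ℝ) = (c : ℝ) ^ (r : ℝ) ↔
      ∃ u v : ℚ, 0 < u ∧ 0 < v ∧ a = c * u ^ r.den ∧ b = c * v ^ r.den ∧
        u ^ r.num + v ^ r.num = 1 := by
  have hcr : (0 : ℝ) < c := by exact_mod_cast hc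
  have har : (0 : ℝ) < a := by exact_mod_cast ha
  have hbr : (0 : ℝ) < b := by exact_mod_cast hb
  have hc' : (0 : ℝ) < (c : ℝ) ^ (r : ℝ) := Real.rpow_pos_of_pos hcr _
  constructor
  · intro h
    have hsum : ((a / c : ℚ) : ℝ) ^ (r : ℝ) + ((b / c : ℚ) : ℝ) ^ (r : ℝ) = 1 := by
      push_cast
      rw [Real.div_rpow har.le hcr.le, Real.div_rpow hbr.le hcr.le, ← add_div, h,
        div_self hc'.ne']
    have hxa : (0 : ℝ) < ((a / c : ℚ) : ℝ) := by exact_mod_cast div_pos ha hc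
    have hxb : (0 : ℝ) < ((b / c : ℚ) : ℝ) := by exact_mod_cast div_pos hb hc
    have hα := Real.rpow_pos_of_pos hxa (r : ℝ)
    have hβ := Real.rpow_pos_of_pos hxb (r : ℝ)
    have e1 : (((a / c : ℚ) : ℝ) ^ (r : ℝ)) ^ r.den = (((a / c) ^ r.num : ℚ) : ℝ) := by
      rw [RatExp.rpow_pow_den hxa]
      push_cast
      rfl
    have e2 : (((b / c : ℚ) : ℝ) ^ (r : ℝ)) ^ r.den = (((b / c) ^ r.num : ℚ) : ℝ) := by
      rw [RatExp.rpow_pow_den hxb]
      push_cast
      rfl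
    obtain ⟨t, ht⟩ := RatExp.exists_rat_of_pow hα hβ hsum r.den_nz e1 e2
    obtain ⟨s, hs⟩ := RatExp.exists_rat_of_pow hβ hα (by rw [add_comm]; exact hsum) r.den_nz e2 e1
    rw [ht] at e1 hsum hα
    rw [hs] at e2 hsum hβ
    obtain ⟨u, hu, hu1, hu2⟩ := RatExp.exists_root (t := t) (x := a / c) (by exact_mod_cast hα)
      (div_pos ha hc) (RatExp.isCoprime_num_den r) (by exact_mod_cast e1)
    obtain ⟨v, hv, hv1, hv2⟩ := RatExp.exists_root (t := s) (x := b / c) (by exact_mod_cast hβ)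
      (div_pos hb hc) (RatExp.isCoprime_num_den r) (by exact_mod_cast e2)
    refine ⟨u, v, hu, hv, ?_, ?_, ?_⟩
    · rw [← hu1, mul_div_cancel₀ _ hc.ne']
    · rw [← hv1, mul_div_cancel₀ _ hc.ne']
    · rw [← hu2, ← hv2]
      exact_mod_cast hsum
  · rintro ⟨u, v, hu, hv, rfl, rfl, h⟩
    have hur : (0 : ℝ) < u := by exact_mod_cast hu
    have hvr : (0 : ℝ) < v := by exact_mod_cast hv
    push_cast
    rw [Real.mul_rpow hcr.le (pow_pos hur _).le, Real.mul_rpow hcr.le (pow_pos hvr _).le,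
      RatExp.pow_rpow_rat hur.le, RatExp.pow_rpow_rat hvr.le, ← mul_add]
    have h1 : (u : ℝ) ^ r.num + (v : ℝ) ^ r.num = 1 := by exact_mod_cast h
    rw [h1, mul_one]

/-- **Fermat's Last Theorem for rational exponents.** -/
theorem fermat_rat_exponent {r : ℚ} (hn : 3 ≤ |r.num|) {a b c : ℚ} (ha : 0 < a)
    (hb : 0 < b) (hc : 0 < c) : (a : ℝ) ^ (r : ℝ) + (b : ℝ) ^ (r : ℝ) ≠ (c : ℝ) ^ (r : ℝ) := by
  intro h
  obtain ⟨u, v, hu, hv, -, -, h1⟩ := (rpow_add_rpow_eq_iff r ha hb hc).mp h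
  exact fermat_zpow hn hu.ne' hv.ne' one_ne_zero (h1.trans (one_zpow _).symm)

/-- The exponents with numerator `±1`, `±2` have solutions in positive integers. -/
theorem RatExp.exists_of_num {r : ℚ} (h : |r.num| = 1 ∨ |r.num| = 2) :
    ∃ a b c : ℕ, 0 < a ∧ 0 < b ∧ 0 < c ∧
      (a : ℝ) ^ (r : ℝ) + (b : ℝ) ^ (r : ℝ) = (c : ℝ) ^ (r : ℝ) := by
  have key : ∀ x y z : ℕ, 0 < x → 0 < y → 0 < z →
      (x : ℝ) ^ r.num + (y : ℝ) ^ r.num = (z : ℝ) ^ r.num →
      ∃ a b c : ℕ, 0 < a ∧ 0 < b ∧ 0 < c ∧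
      (a : ℝ) ^ (r : ℝ) + (b : ℝ) ^ (r : ℝ) = (c : ℝ) ^ (r : ℝ) := by
    intro x y z hx hy hz h
    refine ⟨x ^ r.den, y ^ r.den, z ^ r.den, pow_pos hx _, pow_pos hy _, pow_pos hz _, ?_⟩
    push_cast
    rw [RatExp.pow_rpow_rat (Nat.cast_nonneg _), RatExp.pow_rpow_rat (Nat.cast_nonneg _),
      RatExp.pow_rpow_rat (Nat.cast_nonneg _), h]
  rcases h with h | h
  · rcases (abs_eq (by norm_num)).mp h with h | h
    · exact key 1 1 2 one_pos one_pos two_pos (by rw [h]; norm_num)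
    · exact key 2 2 1 two_pos two_pos one_pos (by rw [h]; norm_num)
  · rcases (abs_eq (by norm_num)).mp h with h | h
    · exact key 3 4 5 (by norm_num) (by norm_num) (by norm_num) (by rw [h]; norm_num)
    · exact key 15 20 12 (by norm_num) (by norm_num) (by norm_num) (by rw [h]; norm_num)

/-- **Fermat's Last Theorem for rational exponents**, in positive rational numbers:
`a ^ r + b ^ r = c ^ r` is solvable if and only if the numerator of `r` is `±1` or `±2`. -/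
theorem fermat_rat_exponent_iff (r : ℚ) :
    (∃ a b c : ℚ, 0 < a ∧ 0 < b ∧ 0 < c ∧
      (a : ℝ) ^ (r : ℝ) + (b : ℝ) ^ (r : ℝ) = (c : ℝ) ^ (r : ℝ)) ↔
      |r.num| = 1 ∨ |r.num| = 2 := by
  constructor
  · rintro ⟨a, b, c, ha, hb, hc, h⟩
    by_contra hcon
    rw [not_or] at hcon
    have h0 : 0 ≤ |r.num| := abs_nonneg _
    rcases eq_or_ne (|r.num|) 0 with h1 | h1
    · have h2 : r = 0 := Rat.num_eq_zero.mp (abs_eq_zero.mp h1)
      rw [h2] at h
      norm_num at h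
    · exact fermat_rat_exponent (r := r) (by omega) ha hb hc h
  · intro h
    obtain ⟨a, b, c, ha, hb, hc, h1⟩ := RatExp.exists_of_num h
    refine ⟨a, b, c, by exact_mod_cast ha, by exact_mod_cast hb, by exact_mod_cast hc, ?_⟩
    exact_mod_cast h1

/-- **Fermat's Last Theorem for rational exponents**, in positive integers. -/
theorem fermat_rat_exponent_nat_iff (r : ℚ) :
    (∃ a b c : ℕ, 0 < a ∧ 0 < b ∧ 0 < c ∧
      (a : ℝ) ^ (r : ℝ) + (b : ℝ) ^ (r : ℝ) = (c : ℝ) ^ (r : ℝ)) ↔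
      |r.num| = 1 ∨ |r.num| = 2 := by
  refine ⟨?_, RatExp.exists_of_num⟩
  rintro ⟨a, b, c, ha, hb, hc, h⟩
  refine (fermat_rat_exponent_iff r).mp
    ⟨a, b, c, by exact_mod_cast ha, by exact_mod_cast hb, by exact_mod_cast hc, ?_⟩
  exact_mod_cast h

/-- The `n`-th root of two is irrational for `n ≥ 3` (Fermat's Last Theorem is too weak for
`n = 2`). -/
theorem irrational_two_rpow {n : ℕ} (hn : 3 ≤ n) : Irrational ((2 : ℝ) ^ ((n : ℝ)⁻¹)) := by
  rintro ⟨t, ht⟩
  have h1 : (t : ℝ) ^ n = 2 := by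
    rw [ht, Real.rpow_inv_natCast_pow (by norm_num) (by omega)]
  have h2 : (t : ℚ) ^ n = 2 := by exact_mod_cast h1
  refine fermatLastTheoremWith_rat hn 1 1 t one_ne_zero one_ne_zero ?_ (by rw [h2]; norm_num)
  rintro rfl
  rw [zero_pow (by omega)] at h2
  norm_num at h2

end Fermat.Agent.Cor
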