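import Fermat.Agent.Corollaries.FLT
import Mathlib.NumberTheory.Padics.PadicVal.Basic
import Mathlib.RingTheory.IntegralClosure.IntegrallyClosed

/-!
# The theorem of Bennett, Glass and Székely (helper34)

Fermat's Last Theorem for rational exponents when all complex roots are allowed: for `r = n / m` in
lowest terms with `|n| ≥ 3` and positive rational numbers `a, b, c` there are complex numbers
`α, β, γ` with `α ^ m = a ^ n`, `β ^ m = b ^ n`, `γ ^ m = c ^ n`, `α + β = γ` if and only if `6 ∣ m`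
and `a = b = c`.

Main result: `bennett_glass_szekely`.
-/

set_option autoImplicit false

namespace Fermat.Agent.Cor

open Polynomial
open scoped ComplexConjugate

/-! ### Complex numbers `w` such that `w ^ m` and `(1 - w) ^ m` are rational -/

theorem RatExp.eq_or_eq_conj_of_norm {z w : ℂ} (h0 : ‖z‖ = ‖w‖) (h1 : ‖1 - z‖ = ‖1 - w‖) :
    z = w ∨ z = conj w := by
  have e0 : z.re * z.re + z.im * z.im = w.re * w.re + w.im * w.im := by
    rw [← Complex.normSq_apply, ← Complex.normSq_apply, Complex.normSq_eq_norm_sq,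
      Complex.normSq_eq_norm_sq, h0]
  have e1 : (1 - z.re) * (1 - z.re) + z.im * z.im = (1 - w.re) * (1 - w.re) + w.im * w.im := by
    have h2 : Complex.normSq (1 - z) = Complex.normSq (1 - w) := by
      rw [Complex.normSq_eq_norm_sq, Complex.normSq_eq_norm_sq, h1]
    rw [Complex.normSq_apply, Complex.normSq_apply] at h2
    simpa using h2
  have hre : z.re = w.re := by linarith
  have him : (z.im - w.im) * (z.im + w.im) = 0 := by
    rw [hre] at e0
    linarith
  rcases mul_eq_zero.mp him with h | h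
  · exact Or.inl (Complex.ext hre (by linarith))
  · exact Or.inr (Complex.ext (by simpa using hre) (by
      rw [Complex.conj_im]
      linarith))

section RatPow

variable {w : ℂ} {m : ℕ} {r s : ℚ}

theorem RatExp.isIntegral_of_pow (hm : m ≠ 0) (hr : w ^ m = r) : IsIntegral ℚ w := by
  refine ⟨X ^ m - C r, monic_X_pow_sub_C r hm, ?_⟩
  rw [eval₂_sub, eval₂_pow, eval₂_X, eval₂_C, hr]
  simp

theorem RatExp.conj_cases (hm : m ≠ 0) (hr : w ^ m = r) (hs : (1 - w) ^ m = s) {z : ℂ}
    (hz : aeval z (minpoly ℚ w) = 0) : z = w ∨ z = conj w := by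
  have hd1 : minpoly ℚ w ∣ X ^ m - C r := minpoly.dvd ℚ w (by
    rw [map_sub, map_pow, aeval_X, aeval_C, hr]
    simp)
  have hd2 : minpoly ℚ w ∣ (1 - X) ^ m - C s := minpoly.dvd ℚ w (by
    rw [map_sub, map_pow, map_sub, map_one, aeval_X, aeval_C, hs]
    simp)
  have e1 : z ^ m = w ^ m := by
    obtain ⟨q, hq⟩ := hd1
    have h2 := congrArg (aeval z) hq
    rw [map_sub, map_pow, aeval_X, aeval_C, map_mul, hz, zero_mul, sub_eq_zero] at h2
    rw [h2, hr]
    simp
  have e2 : (1 - z) ^ m = (1 - w) ^ m := by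
    obtain ⟨q, hq⟩ := hd2
    have h2 := congrArg (aeval z) hq
    rw [map_sub, map_pow, map_sub, map_one, aeval_X, aeval_C, map_mul, hz, zero_mul,
      sub_eq_zero] at h2
    rw [h2, hs]
    simp
  refine RatExp.eq_or_eq_conj_of_norm ?_ ?_
  · have h2 := congrArg norm e1
    rw [norm_pow, norm_pow] at h2
    exact (pow_left_inj₀ (norm_nonneg _) (norm_nonneg _) hm).mp h2
  · have h2 := congrArg norm e2
    rw [norm_pow, norm_pow] at h2
    exact (pow_left_inj₀ (norm_nonneg _) (norm_nonneg _) hm).mp h2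

open Classical in
theorem RatExp.natDegree_le (hm : m ≠ 0) (hr : w ^ m = r) (hs : (1 - w) ^ m = s) :
    (minpoly ℚ w).natDegree ≤ ({w, conj w} : Finset ℂ).card := by
  have hint := RatExp.isIntegral_of_pow hm hr
  have hirr : Irreducible (minpoly ℚ w) := minpoly.irreducible hint
  have hcard : Fintype.card ((minpoly ℚ w).rootSet ℂ) = (minpoly ℚ w).natDegree :=
    card_rootSet_eq_natDegree hirr.separable (IsAlgClosed.splits _)
  rw [← hcard, ← Fintype.card_coe]
  refine Fintype.card_le_of_injective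
    (fun x : (minpoly ℚ w).rootSet ℂ => (⟨x.1, ?_⟩ : ({w, conj w} : Finset ℂ))) ?_
  · have hx := x.2
    rw [mem_rootSet] at hx
    rw [Finset.mem_insert, Finset.mem_singleton]
    exact RatExp.conj_cases hm hr hs hx.2
  · intro x y h
    exact Subtype.ext (Subtype.mk.inj h)

/-- If `w` is real, it is rational. -/
theorem RatExp.exists_rat_of_real (hm : m ≠ 0) (hr : w ^ m = r) (hs : (1 - w) ^ m = s)
    (hw : conj w = w) : ∃ t : ℚ, w = t := by
  classical
  have hint := RatExp.isIntegral_of_pow hm hr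
  have h1 := RatExp.natDegree_le hm hr hs
  rw [hw, Finset.insert_eq_of_mem (Finset.mem_singleton_self w), Finset.card_singleton] at h1
  have hdeg : (minpoly ℚ w).natDegree = 1 := le_antisymm h1 (minpoly.natDegree_pos hint)
  obtain ⟨t, ht⟩ := minpoly.natDegree_eq_one_iff.mp hdeg
  exact ⟨t, by rw [← ht]; simp⟩

/-- If `w` is not real, its trace and its norm are rational. -/
theorem RatExp.exists_trace_norm (hm : m ≠ 0) (hr : w ^ m = r) (hs : (1 - w) ^ m = s)
    (hw : conj w ≠ w) : ∃ T N : ℚ, w + conj w = T ∧ w * conj w = N := by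
  classical
  have hint := RatExp.isIntegral_of_pow hm hr
  have h1 : (minpoly ℚ w).natDegree ≤ 2 := by
    refine (RatExp.natDegree_le hm hr hs).trans ?_
    exact Finset.card_le_two
  have h2 : (minpoly ℚ w).natDegree = 2 := by
    refine le_antisymm h1 ?_
    by_contra hcon
    have h3 : (minpoly ℚ w).natDegree = 1 :=
      le_antisymm (by omega) (minpoly.natDegree_pos hint)
    obtain ⟨t, ht⟩ := minpoly.natDegree_eq_one_iff.mp h3
    exact hw (by rw [← ht]; simp)
  set b : ℚ := (minpoly ℚ w).coeff 1 with hb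
  set c : ℚ := (minpoly ℚ w).coeff 0 with hc
  have hmon : (minpoly ℚ w).coeff 2 = 1 := by
    have := minpoly.monic hint
    rw [Monic, leadingCoeff, h2] at this
    exact this
  have h0 : w ^ 2 + b * w + c = 0 := by
    have h4 := minpoly.aeval ℚ w
    rw [aeval_eq_sum_range, h2, Finset.sum_range_succ, Finset.sum_range_succ,
      Finset.sum_range_one, hmon, ← hb, ← hc] at h4
    simp only [Algebra.smul_def, pow_zero, pow_one, mul_one, map_one, one_mul, eq_ratCast] at h4
    linear_combination h4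
  have h0' : (conj w) ^ 2 + b * conj w + c = 0 := by
    have h4 := congrArg conj h0
    simpa using h4
  have h5 : w + conj w = ((-b : ℚ) : ℂ) := by
    have h6 : (w - conj w) * (w + conj w + b) = 0 := by linear_combination h0 - h0'
    have h7 : w + conj w + b = 0 :=
      (mul_eq_zero.mp h6).resolve_left (sub_ne_zero.mpr (Ne.symm hw))
    push_cast
    linear_combination h7
  refine ⟨-b, c, h5, ?_⟩
  have h8 : conj w = -b - w := by
    push_cast at h5
    linear_combination h5
  rw [h8]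
  linear_combination -h0

/-- `T² = k N` with `k ∈ {0, 1, 2, 3}`: `w / conj w` is a root of unity. -/
theorem RatExp.exists_index (hr : w ^ m = r) (hw0 : w ≠ 0) (hw : conj w ≠ w) (hm : m ≠ 0)
    {T N : ℚ} (hT : w + conj w = T) (hN : w * conj w = N) :
    0 < N ∧ ∃ k : ℤ, 0 ≤ k ∧ k < 4 ∧ T ^ 2 = k * N := by
  have hcw : conj w ≠ 0 := (_root_.map_ne_zero _).mpr hw0
  have hNr : (N : ℝ) = w.re * w.re + w.im * w.im := by
    have h1 := hN
    rw [Complex.mul_conj, Complex.normSq_apply] at h1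
    exact_mod_cast h1.symm
  have hTr : (T : ℝ) = 2 * w.re := by
    have h1 := hT
    rw [Complex.add_conj] at h1
    exact_mod_cast h1.symm
  have him : w.im ≠ 0 := fun h => hw (Complex.conj_eq_iff_im.mpr h)
  have him2 : 0 < w.im * w.im := mul_self_pos.mpr him
  have hN0 : 0 < N := by
    have : (0 : ℝ) < N := by
      rw [hNr]
      nlinarith [mul_self_nonneg w.re]
    exact_mod_cast this
  have hTN : T ^ 2 < 4 * N := by
    have : (T : ℝ) ^ 2 < 4 * N := by
      rw [hNr, hTr]
      nlinarith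
    exact_mod_cast this
  refine ⟨hN0, ?_⟩
  have hr' : (conj w) ^ m = r := by
    rw [← map_pow, hr]
    simp
  have hz1 : (w / conj w) ^ m = 1 := by
    rw [div_pow, hr, hr', div_self]
    rw [← hr]
    exact pow_ne_zero _ hw0
  have hz2 : (conj w / w) ^ m = 1 := by
    rw [div_pow, hr, hr', div_self]
    rw [← hr]
    exact pow_ne_zero _ hw0
  have hint : ∀ z : ℂ, z ^ m = 1 → IsIntegral ℤ z := by
    intro z hz
    refine IsIntegral.of_pow (Nat.pos_of_ne_zero hm) ?_
    rw [hz]
    exact isIntegral_one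
  have hsum : IsIntegral ℤ (w / conj w + conj w / w) := (hint _ hz1).add (hint _ hz2)
  have hq : w / conj w + conj w / w = (((T ^ 2 - 2 * N) / N : ℚ) : ℂ) := by
    push_cast
    rw [← hT, ← hN]
    field_simp
    ring
  rw [hq] at hsum
  have h1 : IsIntegral ℤ ((T ^ 2 - 2 * N) / N : ℚ) := by
    rwa [← eq_ratCast (algebraMap ℚ ℂ), isIntegral_algebraMap_iff
      (algebraMap ℚ ℂ).injective] at hsum
  obtain ⟨y, hy⟩ := IsIntegrallyClosed.isIntegral_iff.mp h1
  have hy' : (y : ℚ) = (T ^ 2 - 2 * N) / N := by simpa using hy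
  have hk : T ^ 2 = ((y + 2 : ℤ) : ℚ) * N := by
    push_cast
    rw [hy']
    field_simp
    ring
  refine ⟨y + 2, ?_, ?_, hk⟩
  · by_contra hcon
    have h2 : ((y + 2 : ℤ) : ℚ) < 0 := by exact_mod_cast not_le.mp hcon
    nlinarith [sq_nonneg T]
  · by_contra hcon
    have h2 : (4 : ℚ) ≤ ((y + 2 : ℤ) : ℚ) := by exact_mod_cast not_lt.mp hcon
    nlinarith

end RatPow

/-! ### The arithmetic -/

theorem RatExp.dvd_padicValRat {p : ℕ} [Fact p.Prime] {u : ℚ} (n : ℤ) {q : ℚ} (h : q = u ^ n) :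
    n ∣ padicValRat p q := by
  rw [h, padicValRat.zpow]
  exact dvd_mul_right _ _

theorem RatExp.not_dvd_small {n x : ℤ} (hn : 3 ≤ |n|) (hx : x ≠ 0) (hx' : |x| ≤ 2) :
    ¬ n ∣ x := by
  intro h
  have h1 : |n| ≤ |x| := by
    have := Int.le_of_dvd (abs_pos.mpr hx) ((abs_dvd_abs n x).mpr h)
    exact this
  omega

theorem RatExp.sq_ne_three (z : ℚ) : z ^ 2 ≠ 3 := by
  intro h
  have : Fact (Nat.Prime 3) := ⟨Nat.prime_three⟩
  have h1 := congrArg (padicValRat 3) h
  rw [padicValRat.pow] at h1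
  have h2 : padicValRat 3 (3 : ℚ) = 1 := by
    have := padicValRat.self (p := 3) (by norm_num)
    exact_mod_cast this
  rw [h2] at h1
  push_cast at h1
  omega

/-- The case distinction. -/
theorem RatExp.arith {n : ℤ} (hn : 3 ≤ |n|) {u v T : ℚ} (hu : 0 < u) (hv : 0 < v) {k l : ℤ}
    (hk : 0 ≤ k) (hk4 : k < 4) (hl : 0 ≤ l) (hl4 : l < 4) (h1 : T ^ 2 = k * u ^ n)
    (h2 : (2 - T) ^ 2 = l * v ^ n) (h3 : v ^ n = 1 - T + u ^ n) :
    T = 1 ∧ u ^ n = 1 ∧ v ^ n = 1 := by
  have f2 : Fact (Nat.Prime 2) := ⟨Nat.prime_two⟩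
  have f3 : Fact (Nat.Prime 3) := ⟨Nat.prime_three⟩
  have v22 : padicValRat 2 (2 : ℚ) = 1 := by
    have := padicValRat.self (p := 2) (by norm_num)
    exact_mod_cast this
  have v33 : padicValRat 3 (3 : ℚ) = 1 := by
    have := padicValRat.self (p := 3) (by norm_num)
    exact_mod_cast this
  have n12 : ∀ z : ℚ, (1 / 2 : ℚ) ≠ z ^ n := fun z h => by
    have h4 := RatExp.dvd_padicValRat (p := 2) n h
    rw [one_div, padicValRat.inv, v22] at h4
    exact RatExp.not_dvd_small hn (by norm_num) (by norm_num) h4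
  have n13 : ∀ z : ℚ, (1 / 3 : ℚ) ≠ z ^ n := fun z h => by
    have h4 := RatExp.dvd_padicValRat (p := 3) n h
    rw [one_div, padicValRat.inv, v33] at h4
    exact RatExp.not_dvd_small hn (by norm_num) (by norm_num) h4
  have n3 : ∀ z : ℚ, (3 : ℚ) ≠ z ^ n := fun z h => by
    have h4 := RatExp.dvd_padicValRat (p := 3) n h
    rw [v33] at h4
    exact RatExp.not_dvd_small hn (by norm_num) (by norm_num) h4
  have n14 : ∀ z : ℚ, (1 / 4 : ℚ) ≠ z ^ n := fun z h => by
    have h4 := RatExp.dvd_padicValRat (p := 2) n h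
    have h5 : (1 / 4 : ℚ) = ((2 : ℚ) ^ 2)⁻¹ := by norm_num
    rw [h5, padicValRat.inv, padicValRat.pow, v22] at h4
    exact RatExp.not_dvd_small hn (by norm_num) (by norm_num) h4
  have hz0 : ∀ {z : ℚ}, z ^ 2 = 0 → z = 0 := fun h => pow_eq_zero_iff (two_ne_zero) |>.mp h
  generalize hU : u ^ n = U at *
  generalize hV : v ^ n = V at *
  interval_cases k
  · -- `k = 0`
    exfalso
    have hT : T = 0 := hz0 (by rw [h1]; norm_num)
    refine fermat_zpow hn one_ne_zero hu.ne' hv.ne' ?_
    rw [one_zpow, hU, hV, h3, hT]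
    ring
  all_goals interval_cases l
  · -- `(1, 0)`
    exfalso
    have hT : 2 - T = 0 := hz0 (by rw [h2]; norm_num)
    refine fermat_zpow hn one_ne_zero hv.ne' hu.ne' ?_
    rw [one_zpow, hU, hV, h3]
    linear_combination hT
  · -- `(1, 1)`
    push_cast at h1 h2
    have hT : T = 1 := by linarith
    subst hT
    exact ⟨rfl, by linarith, by linarith⟩
  · -- `(1, 2)`
    exfalso
    push_cast at h1 h2
    exact RatExp.sq_ne_three (T + 1) (by nlinarith)
  · -- `(1, 3)`
    exfalso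
    push_cast at h1 h2
    have h4 : (2 * T - 1) * (T + 1) = 0 := by nlinarith
    rcases mul_eq_zero.mp h4 with h5 | h5
    · have hT : T = 1 / 2 := by linarith
      subst hT
      exact n14 u (by rw [hU]; linarith)
    · have hT : T = -1 := by linarith
      subst hT
      exact n3 v (by rw [hV]; linarith)
  · -- `(2, 0)`
    exfalso
    have hT : 2 - T = 0 := hz0 (by rw [h2]; norm_num)
    refine fermat_zpow hn one_ne_zero hv.ne' hu.ne' ?_
    rw [one_zpow, hU, hV, h3]
    linear_combination hT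
  · -- `(2, 1)`
    exfalso
    push_cast at h1 h2
    exact RatExp.sq_ne_three (3 - T) (by nlinarith)
  · -- `(2, 2)`
    exfalso
    push_cast at h1 h2
    have hT : T = 1 := by linarith
    subst hT
    exact n12 u (by rw [hU]; linarith)
  · -- `(2, 3)`
    exfalso
    push_cast at h1 h2
    exact RatExp.sq_ne_three (T + 1) (by nlinarith)
  · -- `(3, 0)`
    exfalso
    have hT : 2 - T = 0 := hz0 (by rw [h2]; norm_num)
    refine fermat_zpow hn one_ne_zero hv.ne' hu.ne' ?_
    rw [one_zpow, hU, hV, h3]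
    linear_combination hT
  · -- `(3, 1)`
    exfalso
    push_cast at h1 h2
    have h4 : (2 * T - 3) * (T - 3) = 0 := by nlinarith
    rcases mul_eq_zero.mp h4 with h5 | h5
    · have hT : T = 3 / 2 := by linarith
      subst hT
      exact n14 v (by rw [hV]; linarith)
    · have hT : T = 3 := by linarith
      subst hT
      exact n3 u (by rw [hU]; linarith)
  · -- `(3, 2)`
    exfalso
    push_cast at h1 h2
    exact RatExp.sq_ne_three (T - 3) (by nlinarith)
  · -- `(3, 3)`
    exfalso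
    push_cast at h1 h2
    have hT : T = 1 := by linarith
    subst hT
    exact n13 u (by rw [hU]; linarith)

theorem RatExp.eq_one_of_zpow {n : ℤ} (hn : 3 ≤ |n|) {u : ℚ} (hu : 0 < u) (h : u ^ n = 1) :
    u = 1 := by
  by_contra hcon
  have h1 := (zpow_eq_one_iff_right₀ hu.le hcon).mp h
  rw [h1] at hn
  norm_num at hn

theorem RatExp.six_dvd {w : ℂ} (hw : w ^ 2 - w + 1 = 0) {m : ℕ} (hm : w ^ m = 1) : 6 ∣ m := by
  have h3 : w ^ 3 = -1 := by linear_combination (w + 1) * hw
  have h6 : w ^ 6 = 1 := by linear_combination (w ^ 3 - 1) * h3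
  have h1 : w ^ (m % 6) = 1 := by
    rw [← hm, ← Nat.div_add_mod m 6, pow_add, pow_mul, h6, one_pow, one_mul,
      Nat.mul_add_mod_self_left, Nat.mod_mod]
  have hlt : m % 6 < 6 := Nat.mod_lt _ (by norm_num)
  refine Nat.dvd_of_mod_eq_zero ?_
  have hw1 : w ≠ 1 := by
    rintro rfl
    norm_num at hw
  have hw0 : w ≠ 0 := by
    rintro rfl
    norm_num at hw
  generalize m % 6 = j at h1 hlt
  interval_cases j
  · rfl
  · exact absurd (by simpa using h1) hw1
  · exfalso
    have h4 : w = 2 := by linear_combination h1 - hw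
    rw [h4] at hw
    norm_num at hw
  · exfalso
    rw [h3] at h1
    norm_num at h1
  · exfalso
    have h4 : w = -1 := by linear_combination w * h3 - h1
    rw [h4] at hw
    norm_num at hw
  · exfalso
    have h4 : w = 0 := by linear_combination -h1 + w ^ 2 * h3 - hw
    exact hw0 h4

/-! ### The theorem -/

/-- The theorem in the form `w + (1 - w) = 1`. -/
theorem RatExp.core {n : ℤ} (hn : 3 ≤ |n|) {m : ℕ} (hm : m ≠ 0) (hc : IsCoprime n (m : ℤ))
    {x y : ℚ} (hx : 0 < x) (hy : 0 < y) {w : ℂ} (h1 : w ^ m = ((x ^ n : ℚ) : ℂ))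
    (h2 : (1 - w) ^ m = ((y ^ n : ℚ) : ℂ)) : 6 ∣ m ∧ x = 1 ∧ y = 1 := by
  have hw0 : w ≠ 0 := by
    rintro rfl
    rw [zero_pow hm] at h1
    exact (zpow_pos hx n).ne (by exact_mod_cast h1)
  have hw1 : 1 - w ≠ 0 := by
    intro h
    rw [h, zero_pow hm] at h2
    exact (zpow_pos hy n).ne (by exact_mod_cast h2)
  by_cases hreal : conj w = w
  · -- `w` is rational
    exfalso
    obtain ⟨t, rfl⟩ := RatExp.exists_rat_of_real hm h1 h2 hreal
    have e1 : t ^ m = x ^ n := by exact_mod_cast h1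
    have e2 : (1 - t) ^ m = y ^ n := by exact_mod_cast h2
    have ht0 : t ≠ 0 := by
      rintro rfl
      simp at hw0
    have ht1 : 1 - t ≠ 0 := by
      intro h
      refine hw1 ?_
      exact_mod_cast h
    have a1 : |t| ^ m = x ^ n := by
      rw [← abs_pow, e1, abs_of_pos (zpow_pos hx n)]
    have a2 : |1 - t| ^ m = y ^ n := by
      rw [← abs_pow, e2, abs_of_pos (zpow_pos hy n)]
    obtain ⟨u, hu, -, hu'⟩ := RatExp.exists_root (abs_pos.mpr ht0) hx hc a1
    obtain ⟨v, hv, -, hv'⟩ := RatExp.exists_root (abs_pos.mpr ht1) hy hc a2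
    rcases lt_or_gt_of_ne ht0 with h | h
    · have h' : 0 < 1 - t := by linarith
      rw [abs_of_neg h] at hu'
      rw [abs_of_pos h'] at hv'
      refine fermat_zpow hn one_ne_zero hu.ne' hv.ne' ?_
      rw [one_zpow, ← hu', ← hv']
      ring
    · rw [abs_of_pos h] at hu'
      rcases lt_or_gt_of_ne ht1 with h' | h'
      · rw [abs_of_neg h'] at hv'
        refine fermat_zpow hn one_ne_zero hv.ne' hu.ne' ?_
        rw [one_zpow, ← hu', ← hv']
        ring
      · rw [abs_of_pos h'] at hv'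
        refine fermat_zpow hn hu.ne' hv.ne' one_ne_zero ?_
        rw [one_zpow, ← hu', ← hv']
        ring
  · -- `w` is not real
    obtain ⟨T, N, hT, hN⟩ := RatExp.exists_trace_norm hm h1 h2 hreal
    obtain ⟨hN0, k, hk, hk4, hkN⟩ := RatExp.exists_index h1 hw0 hreal hm hT hN
    have hreal' : conj (1 - w) ≠ 1 - w := by
      intro h
      rw [map_sub, map_one] at h
      exact hreal (by linear_combination -h)
    have hT' : (1 - w) + conj (1 - w) = ((2 - T : ℚ) : ℂ) := by
      rw [map_sub, map_one]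
      push_cast
      linear_combination -hT
    have hN' : (1 - w) * conj (1 - w) = ((1 - T + N : ℚ) : ℂ) := by
      rw [map_sub, map_one]
      push_cast
      linear_combination hN - hT
    obtain ⟨hN0', l, hl, hl4, hlN⟩ := RatExp.exists_index h2 hw1 hreal' hm hT' hN'
    have b1 : N ^ m = (x ^ 2) ^ n := by
      have h3 : (N : ℂ) ^ m = (((x ^ 2) ^ n : ℚ) : ℂ) := by
        rw [← hN, mul_pow, ← map_pow, h1, map_ratCast, ← Rat.cast_mul, ← mul_zpow, sq]
      exact_mod_cast h3
    have b2 : (1 - T + N) ^ m = (y ^ 2) ^ n := by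
      have h3 : ((1 - T + N : ℚ) : ℂ) ^ m = (((y ^ 2) ^ n : ℚ) : ℂ) := by
        rw [← hN', mul_pow, ← map_pow, h2, map_ratCast, ← Rat.cast_mul, ← mul_zpow, sq]
      exact_mod_cast h3
    obtain ⟨u, hu, hu1, hu2⟩ := RatExp.exists_root hN0 (pow_pos hx 2) hc b1
    obtain ⟨v, hv, hv1, hv2⟩ := RatExp.exists_root hN0' (pow_pos hy 2) hc b2
    obtain ⟨hT1, hu3, hv3⟩ := RatExp.arith hn hu hv hk hk4 hl hl4 (by rw [hkN, hu2])
      (by rw [hlN, hv2]) (by rw [← hv2, ← hu2])
    have hu4 := RatExp.eq_one_of_zpow hn hu hu3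
    have hv4 := RatExp.eq_one_of_zpow hn hv hv3
    rw [hu4, one_pow] at hu1
    rw [hv4, one_pow] at hv1
    have hx1 : x = 1 := (pow_eq_one_iff_of_nonneg hx.le two_ne_zero).mp hu1
    have hy1 : y = 1 := (pow_eq_one_iff_of_nonneg hy.le two_ne_zero).mp hv1
    refine ⟨?_, hx1, hy1⟩
    have hN1 : N = 1 := by rw [hu2, hu3]
    have hq : w ^ 2 - w + 1 = 0 := by
      rw [hT1] at hT
      rw [hN1] at hN
      push_cast at hT hN
      linear_combination w * hT - hN
    refine RatExp.six_dvd hq ?_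
    rw [h1, hx1, one_zpow, Rat.cast_one]

/-- **Fermat's Last Theorem for rational exponents, all complex roots allowed** (Bennett, Glass,
Székely): for `r` with `|r.num| ≥ 3` the equation `a ^ r + b ^ r = c ^ r` has a solution for some
choice of the complex powers only if `6 ∣ r.den` and `a = b = c` (and then it has one). -/
theorem bennett_glass_szekely {r : ℚ} (hn : 3 ≤ |r.num|) {a b c : ℚ} (ha : 0 < a) (hb : 0 < b)
    (hc : 0 < c) : (∃ α β γ : ℂ, α ^ r.den = (a : ℂ) ^ r.num ∧ β ^ r.den = (b : ℂ) ^ r.num ∧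
      γ ^ r.den = (c : ℂ) ^ r.num ∧ α + β = γ) ↔ 6 ∣ r.den ∧ a = b ∧ b = c := by
  have hm : r.den ≠ 0 := r.den_nz
  constructor
  · rintro ⟨α, β, γ, h1, h2, h3, h4⟩
    have hcc : (c : ℂ) ≠ 0 := by exact_mod_cast hc.ne'
    have hγ : γ ≠ 0 := by
      rintro rfl
      rw [zero_pow hm] at h3
      exact (zpow_ne_zero _ hcc) h3.symm
    have e1 : (α / γ) ^ r.den = (((a / c) ^ r.num : ℚ) : ℂ) := by
      rw [div_pow, h1, h3]
      push_cast
      rw [div_zpow]
    have e2 : (1 - α / γ) ^ r.den = (((b / c) ^ r.num : ℚ) : ℂ) := by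
      have h5 : 1 - α / γ = β / γ := by
        rw [← h4]
        have : α + β ≠ 0 := by rwa [h4]
        field_simp
        ring
      rw [h5, div_pow, h2, h3]
      push_cast
      rw [div_zpow]
    obtain ⟨h6, h7, h8⟩ :=
      RatExp.core hn hm (RatExp.isCoprime_num_den r) (div_pos ha hc) (div_pos hb hc) e1 e2
    have hac : a = c := by rwa [div_eq_one_iff_eq hc.ne'] at h7
    have hbc : b = c := by rwa [div_eq_one_iff_eq hc.ne'] at h8
    exact ⟨h6, hac.trans hbc.symm, hbc⟩
  · rintro ⟨⟨q, hq⟩, rfl, rfl⟩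
    obtain ⟨γ, hγ⟩ := IsAlgClosed.exists_pow_nat_eq ((a : ℂ) ^ r.num) (Nat.pos_of_ne_zero hm)
    obtain ⟨z, hz⟩ := IsAlgClosed.exists_pow_nat_eq (-3 : ℂ) (n := 2) two_pos
    have hω : ((1 + z) / 2) ^ 2 - (1 + z) / 2 + 1 = 0 := by linear_combination hz / 4
    generalize (1 + z) / 2 = ω at hω
    have h3 : ω ^ 3 = -1 := by linear_combination (ω + 1) * hω
    have h6 : ω ^ 6 = 1 := by linear_combination (ω ^ 3 - 1) * h3
    have h6' : (1 - ω) ^ 6 = 1 := by
      have h7 : 1 - ω = -ω ^ 2 := by linear_combination hω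
      rw [h7]
      linear_combination (ω ^ 6 + 1) * h6
    refine ⟨ω * γ, (1 - ω) * γ, γ, ?_, ?_, hγ, by ring⟩
    · rw [mul_pow, hγ, hq, pow_mul, h6, one_pow, one_mul]
    · rw [mul_pow, hγ, hq, pow_mul, h6', one_pow, one_mul]

end Fermat.Agent.Cor
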