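import Fermat.Agent.Corollaries.MultUnr
import Fermat.Agent.Corollaries.GenusZero
import Fermat.Agent.Ext.Low.Lower
import Fermat.Agent.S39
import Fermat.Agent.Classic.Level.Final

/-!
# Ribet's theorem for semistable elliptic curves over `ℚ`

`W` semistable, `p` an odd prime, `W[p]` irreducible: `W` is residually modular at `p` of level
`serreLevel W p`, the product of the primes `q` with `q ∣ Δ` and `p ∤ v_q(Δ)` (the conductor of the
representation `W[p]`, without the prime `p` if `W[p]` is finite at `p`). In particular there is a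
non-zero cusp form of weight two and this level, so `serreLevel W p` is at least `11` and is not
one of the levels of genus zero.
-/

set_option autoImplicit false

namespace Fermat.Agent.Cor

open WeierstrassCurve WeierstrassCurve.Affine WeierstrassCurve.Affine.Point Fermat.Agent.ECRed
open CongruenceSubgroup

variable {W : WeierstrassCurve ℤ} {p : ℕ}

/-- The conductor of `W[p]` for a semistable curve `W`. -/
def serreLevel (W : WeierstrassCurve ℤ) (p : ℕ) : ℕ :=
  ∏ q ∈ W.Δ.natAbs.primeFactors with ¬ p ∣ padicValInt q W.Δ, q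

theorem serreLevel_pos (W : WeierstrassCurve ℤ) (p : ℕ) : 0 < serreLevel W p :=
  Finset.prod_pos fun _ hq => (Nat.prime_of_mem_primeFactors (Finset.mem_filter.1 hq).1).pos

instance (W : WeierstrassCurve ℤ) (p : ℕ) : NeZero (serreLevel W p) := ⟨(serreLevel_pos W p).ne'⟩

theorem serreLevel_dvd_radical (W : WeierstrassCurve ℤ) (p : ℕ) :
    serreLevel W p ∣ ∏ q ∈ W.Δ.natAbs.primeFactors, q :=
  Finset.prod_dvd_prod_of_subset _ _ _ (Finset.filter_subset _ _)

lemma squarefree_prod_primeFactors (n : ℕ) : Squarefree (∏ q ∈ n.primeFactors, q) := by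
  rcases eq_or_ne n 0 with rfl | hn
  · simp
  · rw [← Nat.radical_eq_prod_primeFactors]
    exact UniqueFactorizationMonoid.squarefree_radical

theorem squarefree_serreLevel (W : WeierstrassCurve ℤ) (p : ℕ) : Squarefree (serreLevel W p) :=
  (squarefree_prod_primeFactors _).squarefree_of_dvd (serreLevel_dvd_radical W p)

theorem prime_dvd_serreLevel_iff (hΔ : W.Δ ≠ 0) {q : ℕ} (hq : q.Prime) :
    q ∣ serreLevel W p ↔ (q : ℤ) ∣ W.Δ ∧ ¬ p ∣ padicValInt q W.Δ := by
  rw [serreLevel, hq.prime.dvd_finsetProd_iff]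
  constructor
  · rintro ⟨r, hr, hqr⟩
    rw [Finset.mem_filter, Nat.mem_primeFactors] at hr
    obtain rfl := (Nat.prime_dvd_prime_iff_eq hq hr.1.1).mp hqr
    exact ⟨Int.natCast_dvd.2 hr.1.2.1, hr.2⟩
  · rintro ⟨h1, h2⟩
    exact ⟨q, Finset.mem_filter.2 ⟨Nat.mem_primeFactors.2
      ⟨hq, Int.natCast_dvd.1 h1, Int.natAbs_ne_zero.2 hΔ⟩, h2⟩, dvd_rfl⟩

/-- **Unramified at `q`** if `p ∣ v_q(Δ)`. -/
theorem unramifiedAt_of_dvd (hΔ : W.Δ ≠ 0) (hW : W.IsSemistableModel) (hp : p.Prime)
    (hp2 : p ≠ 2) {q : ℕ} (hq : q.Prime) (hqp : q ≠ p) (hqΔ : (q : ℤ) ∣ W.Δ)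
    (hd : p ∣ padicValInt q W.Δ) :
    Point.GaloisRepUnramifiedAt (K := AlgebraicClosure ℚ) ℚ (W.map (Int.castRingHom ℚ)) p q := by
  intro A hA σ hσ x
  have hx := (Submodule.mem_torsionBy_iff _ _).mp x.2
  rw [natCast_zsmul] at hx
  apply Subtype.ext
  exact inertia_smul_of_dvd ⟨hq, hqΔ, hW q hq hqΔ, hΔ⟩ (hp.odd_of_ne_two hp2)
    (fun h => hqp ((Nat.prime_dvd_prime_iff_eq hq hp).mp h)) hd hA hσ hx

/-- Modularity of level `N` gives residual modularity of level `N`. -/
theorem resMod_of_isModularModelOfLevel {N : ℕ} (h : W.IsModularModelOfLevel N)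
    (hp : p.Prime) : W.IsResiduallyModularOfLevel p N := by
  obtain ⟨f, hf, hfa⟩ := h
  obtain ⟨𝔪, hmax, hpm⟩ := FLTPrelim.exists_maximalIdeal_natCast_prime_mem hp
  refine ⟨f, 𝔪, hf, hmax, hpm, fun ℓ hℓ hgood hℓN _ => ?_⟩
  refine ⟨((W.apOfModel ℓ : ℤ) : integralClosure ℤ ℂ), ?_, ?_⟩
  · rw [hfa ℓ hℓ hgood hℓN]
    push_cast
    rfl
  · rw [sub_self]
    exact 𝔪.zero_mem

/-- One step of level lowering. -/
theorem lower_step (hΔ : W.Δ ≠ 0) (hW : W.IsSemistableModel) (hp : p.Prime) (hp2 : p ≠ 2)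
    (hirr : W.ModRepIsIrreducible p) {q m : ℕ} (hq : q.Prime) (hqΔ : (q : ℤ) ∣ W.Δ)
    (hd : p ∣ padicValInt q W.Δ) (hm : Squarefree (m * q))
    (h : W.IsResiduallyModularOfLevel p (m * q)) : W.IsResiduallyModularOfLevel p m := by
  have hsq := Nat.squarefree_mul_iff.mp hm
  have hqm : ¬ q ∣ m := (Nat.Prime.coprime_iff_not_dvd hq).mp hsq.1.symm
  have : Fact p.Prime := ⟨hp⟩
  by_cases hqp : q = p
  · subst hqp
    have h1 := S39.result W hΔ hq hp2 (hW q hq) hirr (by
      rw [IsPeuRamifieeAt, WeierstrassCurve.map_Δ, eq_intCast, padicValRat.of_int]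
      exact_mod_cast hd) (M := m * q) (Nat.pos_of_ne_zero hm.ne_zero) (dvd_mul_left q m) (by
      rw [sq]
      intro h2
      exact hqm (Nat.dvd_of_mul_dvd_mul_right hq.pos h2)) h
    rwa [Nat.mul_div_cancel _ hq.pos] at h1
  · exact Ext.Low.lower hp2 hΔ hW hirr hsq.2.1 hq hqp hqm
      (Ribet.rbar_isUnramifiedAt_of_points _ p (unramifiedAt_of_dvd hΔ hW hp hp2 hq hqp hqΔ hd)) h

/-- **Level lowering**, from any squarefree level with the same prime factors as `Δ`. -/
theorem resMod_serre_of (hΔ : W.Δ ≠ 0) (hW : W.IsSemistableModel) (hp : p.Prime)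
    (hp2 : p ≠ 2) (hirr : W.ModRepIsIrreducible p)
    (h : W.IsResiduallyModularOfLevel p (∏ q ∈ W.Δ.natAbs.primeFactors, q)) :
    W.IsResiduallyModularOfLevel p (serreLevel W p) := by
  classical
  set F := W.Δ.natAbs.primeFactors with hF
  have key : ∀ T : Finset ℕ, T ⊆ F.filter (fun q => p ∣ padicValInt q W.Δ) →
      W.IsResiduallyModularOfLevel p (∏ q ∈ F \ T, q) := by
    intro T
    induction T using Finset.induction_on with
    | empty =>
      intro _
      rw [Finset.sdiff_empty]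
      exact h
    | insert q T hqT ih =>
      intro hT
      have hqF : q ∈ F.filter (fun q => p ∣ padicValInt q W.Δ) := hT (Finset.mem_insert_self q T)
      rw [Finset.mem_filter, hF, Nat.mem_primeFactors] at hqF
      have h1 := ih ((Finset.subset_insert q T).trans hT)
      have hprod : ∏ r ∈ F \ T, r = (∏ r ∈ F \ insert q T, r) * q := by
        have h2 : F \ T = insert q (F \ insert q T) := by
          ext r
          simp only [Finset.mem_sdiff, Finset.mem_insert, not_or]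
          constructor
          · rintro ⟨h3, h4⟩
            by_cases h5 : r = q
            · exact Or.inl h5
            · exact Or.inr ⟨h3, h5, h4⟩
          · rintro (rfl | ⟨h3, -, h4⟩)
            · exact ⟨by rw [hF, Nat.mem_primeFactors]; exact hqF.1, hqT⟩
            · exact ⟨h3, h4⟩
        rw [h2, Finset.prod_insert (by simp), mul_comm]
      rw [hprod] at h1
      refine lower_step hΔ hW hp hp2 hirr hqF.1.1 (Int.natCast_dvd.2 hqF.1.2.1) hqF.2 ?_ h1
      rw [← hprod]
      exact (squarefree_prod_primeFactors _).squarefree_of_dvd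
        (Finset.prod_dvd_prod_of_subset _ _ _ Finset.sdiff_subset)
  have h1 := key _ subset_rfl
  have h2 : F \ F.filter (fun q => p ∣ padicValInt q W.Δ) =
      F.filter (fun q => ¬ p ∣ padicValInt q W.Δ) := by
    ext r
    simp only [Finset.mem_sdiff, Finset.mem_filter, not_and]
    constructor
    · rintro ⟨h3, h4⟩
      exact ⟨h3, h4 h3⟩
    · rintro ⟨h3, h4⟩
      exact ⟨h3, fun _ => h4⟩
  rw [h2] at h1
  exact h1

/-- **Ribet's theorem for semistable curves** (with Wiles): residual modularity of the optimal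
level. -/
theorem resMod_serre (hΔ : W.Δ ≠ 0) (hW : W.IsSemistableModel) (hp : p.Prime) (hp2 : p ≠ 2)
    (hirr : W.ModRepIsIrreducible p) : W.IsResiduallyModularOfLevel p (serreLevel W p) := by
  refine resMod_serre_of hΔ hW hp hp2 hirr ?_
  obtain ⟨N, hN0, hsq, hN, hmod⟩ := Classic.exact_of_semistable hΔ hW
  have h1 : N.primeFactors = W.Δ.natAbs.primeFactors := by
    ext q
    rw [Nat.mem_primeFactors, Nat.mem_primeFactors]
    constructor
    · rintro ⟨h1, h2, -⟩
      exact ⟨h1, Int.natCast_dvd.1 ((hN q h1).1 h2), Int.natAbs_ne_zero.2 hΔ⟩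
    · rintro ⟨h1, h2, -⟩
      exact ⟨h1, (hN q h1).2 (Int.natCast_dvd.2 h2), hN0.ne'⟩
  rw [← h1, Nat.prod_primeFactors_of_squarefree hsq]
  exact resMod_of_isModularModelOfLevel hmod hp

/-- There is a non-zero cusp form of weight two and level `serreLevel W p`. -/
theorem exists_form_serre (hΔ : W.Δ ≠ 0) (hW : W.IsSemistableModel) (hp : p.Prime)
    (hp2 : p ≠ 2) (hirr : W.ModRepIsIrreducible p) :
    ∃ f : CuspForm (Gamma0 (serreLevel W p)) 2, f ≠ 0 := by
  obtain ⟨f, -, hf, -⟩ := resMod_serre hΔ hW hp hp2 hirr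
  exact ⟨f, hf.ne_zero⟩

/-- The optimal level is not one of the levels of genus zero. -/
theorem serreLevel_notMem (hΔ : W.Δ ≠ 0) (hW : W.IsSemistableModel) (hp : p.Prime)
    (hp2 : p ≠ 2) (hirr : W.ModRepIsIrreducible p) : serreLevel W p ∉ zeroLevels :=
  notMem_of_exists (exists_form_serre hΔ hW hp hp2 hirr)

theorem eleven_le_serreLevel (hΔ : W.Δ ≠ 0) (hW : W.IsSemistableModel) (hp : p.Prime)
    (hp2 : p ≠ 2) (hirr : W.ModRepIsIrreducible p) : 11 ≤ serreLevel W p :=
  eleven_le_of_notMem (serreLevel_notMem hΔ hW hp hp2 hirr)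

/-- Some prime `q ∣ Δ` has `p ∤ v_q(Δ)`: `W[p]` is ramified at `q`, or (if `q = p`) not finite. -/
theorem exists_prime_not_dvd_val (hΔ : W.Δ ≠ 0) (hW : W.IsSemistableModel) (hp : p.Prime)
    (hp2 : p ≠ 2) (hirr : W.ModRepIsIrreducible p) :
    ∃ q : ℕ, q.Prime ∧ (q : ℤ) ∣ W.Δ ∧ ¬ p ∣ padicValInt q W.Δ := by
  have h1 := eleven_le_serreLevel hΔ hW hp hp2 hirr
  obtain ⟨q, hq, hqd⟩ := Nat.exists_prime_and_dvd (n := serreLevel W p) (by omega)
  exact ⟨q, hq, (prime_dvd_serreLevel_iff hΔ hq).1 hqd⟩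

end Fermat.Agent.Cor
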