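import Fermat.Agent.Corollaries.LevelLower
import Fermat.Agent.Corollaries.K4S.Cond

/-!
# The levels of the mod `p` representation of a semistable elliptic curve

`W` semistable, `p` an odd prime, `W[p]` irreducible. Every level `M` of a form congruent to `W`
modulo `p` is divisible by the primes `q ≠ p` with `q ∣ Δ`, `p ∤ v_q(Δ)`
(`serreLevel_dvd_mul`). With Ribet's theorem (`resMod_serre`) this determines all levels: if `p`
does not divide `serreLevel W p`, then `W` is residually modular at `p` of level `M` if and only if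
`serreLevel W p ∣ M` (`resMod_iff`); in any case this is so for the multiples `M` of `p`
(`resMod_iff_of_self_dvd`).
-/

set_option autoImplicit false

namespace Fermat.Agent.Cor

open WeierstrassCurve WeierstrassCurve.Affine WeierstrassCurve.Affine.Point Fermat.Agent.ECRed
open CongruenceSubgroup

variable {W : WeierstrassCurve ℤ} {p : ℕ}

/-- **Raising the level**: a curve which is residually modular of level `N` is residually modular
of every level which is a multiple of `N`. -/
theorem resMod_raise {N M : ℕ} (hM : M ≠ 0) (hNM : N ∣ M)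
    (h : W.IsResiduallyModularOfLevel p N) : W.IsResiduallyModularOfLevel p M := by
  obtain ⟨f, 𝔪, hf, hmax, hpm, ha⟩ := h
  have : NeZero M := ⟨hM⟩
  obtain ⟨g, hg, hgf⟩ := Oldforms.exists_eigenform_raise hNM f hf
  refine ⟨g, 𝔪, hg, hmax, hpm, fun ℓ hℓ hgood hℓM hℓp => ?_⟩
  obtain ⟨a, h1, h2⟩ := ha ℓ hℓ hgood (fun h' => hℓM (h'.trans hNM)) hℓp
  exact ⟨a, h1.trans (hgf ℓ hℓ fun h' => absurd h' hℓM).symm, h2⟩

/-- **The Serre level divides every level, away from `p`.** -/
theorem serreLevel_dvd_mul (hΔ : W.Δ ≠ 0) (hW : W.IsSemistableModel) (hp : p.Prime)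
    (hp2 : p ≠ 2) (hirr : W.ModRepIsIrreducible p) {M : ℕ} (hM : M ≠ 0)
    (h : W.IsResiduallyModularOfLevel p M) : serreLevel W p ∣ M * p := by
  have : Fact p.Prime := ⟨hp⟩
  rw [← Nat.prod_primeFactors_of_squarefree (squarefree_serreLevel W p)]
  refine Finset.prod_primes_dvd _ (fun q hq => (Nat.prime_of_mem_primeFactors hq).prime)
    fun q hq => ?_
  rw [Nat.mem_primeFactors] at hq
  obtain ⟨hq, hqd, -⟩ := hq
  rcases eq_or_ne q p with rfl | hqp
  · exact dvd_mul_left q M
  · obtain ⟨h1, h2⟩ := (prime_dvd_serreLevel_iff hΔ hq).1 hqd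
    exact (dvd_of_resMod hp2 hirr hM h ⟨hq, h1, hW q hq h1, hΔ⟩ hqp h2).mul_right p

/-- If `p` does not divide the Serre level, the Serre level divides every level. -/
theorem serreLevel_dvd_of_resMod (hΔ : W.Δ ≠ 0) (hW : W.IsSemistableModel) (hp : p.Prime)
    (hp2 : p ≠ 2) (hirr : W.ModRepIsIrreducible p) (hfin : ¬ p ∣ serreLevel W p) {M : ℕ}
    (hM : M ≠ 0) (h : W.IsResiduallyModularOfLevel p M) : serreLevel W p ∣ M :=
  (((Nat.Prime.coprime_iff_not_dvd hp).2 hfin).symm).dvd_of_dvd_mul_right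
    (serreLevel_dvd_mul hΔ hW hp hp2 hirr hM h)

/-- **The levels of `W[p]`**, `W` semistable, `p` odd, `W[p]` irreducible: if `p` does not divide
the Serre level, i.e. `W` has good reduction at `p` or `p ∣ v_p(Δ)`, then `W` is residually modular
at `p` of level `M` if and only if the Serre level divides `M`. -/
theorem resMod_iff (hΔ : W.Δ ≠ 0) (hW : W.IsSemistableModel) (hp : p.Prime) (hp2 : p ≠ 2)
    (hirr : W.ModRepIsIrreducible p) (hfin : ¬ p ∣ serreLevel W p) {M : ℕ} (hM : M ≠ 0) :
    W.IsResiduallyModularOfLevel p M ↔ serreLevel W p ∣ M :=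
  ⟨serreLevel_dvd_of_resMod hΔ hW hp hp2 hirr hfin hM,
    fun h => resMod_raise hM h (resMod_serre hΔ hW hp hp2 hirr)⟩

/-- The same for the levels divisible by `p`, without any condition at `p`. -/
theorem resMod_iff_of_self_dvd (hΔ : W.Δ ≠ 0) (hW : W.IsSemistableModel) (hp : p.Prime)
    (hp2 : p ≠ 2) (hirr : W.ModRepIsIrreducible p) {M : ℕ} (hM : M ≠ 0) (hpM : p ∣ M) :
    W.IsResiduallyModularOfLevel p M ↔ serreLevel W p ∣ M := by
  refine ⟨fun h => ?_, fun h => resMod_raise hM h (resMod_serre hΔ hW hp hp2 hirr)⟩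
  have h1 := serreLevel_dvd_mul hΔ hW hp hp2 hirr hM h
  rw [← Nat.prod_primeFactors_of_squarefree (squarefree_serreLevel W p)]
  refine Finset.prod_primes_dvd _ (fun q hq => (Nat.prime_of_mem_primeFactors hq).prime)
    fun q hq => ?_
  rw [Nat.mem_primeFactors] at hq
  rcases hq.1.dvd_mul.mp (hq.2.1.trans h1) with h2 | h2
  · exact h2
  · exact (Nat.prime_dvd_prime_iff_eq hq.1 hp).mp h2 ▸ hpM

/-- **Serre's optimal level** is the least level prime to `p` if `p` does not divide it. -/
theorem serreLevel_le (hΔ : W.Δ ≠ 0) (hW : W.IsSemistableModel) (hp : p.Prime)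
    (hp2 : p ≠ 2) (hirr : W.ModRepIsIrreducible p) (hfin : ¬ p ∣ serreLevel W p) {M : ℕ}
    (hM : M ≠ 0) (h : W.IsResiduallyModularOfLevel p M) : serreLevel W p ≤ M :=
  Nat.le_of_dvd (Nat.pos_of_ne_zero hM) (serreLevel_dvd_of_resMod hΔ hW hp hp2 hirr hfin hM h)

end Fermat.Agent.Cor
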