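import Fermat.Agent.ECVal.InertiaFix
import Fermat.Agent.EC.MultPlace

/-!
# Multiplicative reduction: torsion is unramified if `n` divides the valuation of the discriminant

`W` an elliptic curve over `ℤ` with multiplicative reduction at `q` (any prime, `q = 2` allowed),
`n` odd, prime to `q`, dividing `v_q(Δ)`: the inertia groups above `q` act trivially on `W[n]`.

There is no Tate curve: `e` is the abscissa of a `2`-torsion point which reduces to the node,
`c = e - 2 D / u` (`u` the unit root of `T² - B T + 12 D`) the critical point of the curve near the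
node, which is fixed by inertia; if `P = (x, y)` is an `n`-torsion point then `v(x - c)` is an
integer `m` and `v(2y + a₁x + a₃) = m`; if `σP ≠ P` the slope of the line through `σP` and `-P` has
negative valuation, so `σP - P` is a torsion point in the kernel of the reduction.
-/

set_option autoImplicit false

namespace Fermat.Agent.Cor

open WeierstrassCurve WeierstrassCurve.Affine WeierstrassCurve.Affine.Point FermatAgent.ECVal
  Fermat.Agent.ECRed

local notation "Qbar" => AlgebraicClosure ℚ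

variable {W : WeierstrassCurve ℤ} {q : ℕ} {A : ValuationSubring Qbar}

/-- valuations of integers. -/
lemma is_intCast (hq : q.Prime) (hA : A.LiesOverPrime q) {n : ℤ} (hn : n ≠ 0) :
    (valOf hq hA).Is (padicValInt q n : ℚ) ((n : ℤ) : Qbar) := by
  have h := valOf_ratCast (K := Qbar) hq hA (r := (n : ℚ)) (by exact_mod_cast hn)
  rw [map_intCast, padicValRat.of_int] at h
  exact_mod_cast h

lemma ge_intCast' (hq : q.Prime) (hA : A.LiesOverPrime q) (n : ℤ) :
    (valOf hq hA).Ge 0 ((n : ℤ) : Qbar) := QVal.ge_intCast n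

/-- integrality of torsion points. -/
lemma integral_of_torsion (hq : q.Prime) (hA : A.LiesOverPrime q) {n : ℕ} (hqn : ¬ q ∣ n)
    {x y : Qbar} {h : (EQ W).Nonsingular x y} (h0 : n • some x y h = 0) :
    (valOf hq hA).Ge 0 x ∧ (valOf hq hA).Ge 0 y := by
  have hnv : A.valuation (n : Qbar) = 1 := by
    have := val_intCast_eq_one A.valuation hq (lt_one_of_liesOver hA) (n := (n : ℤ))
      (by exact_mod_cast hqn)
    exact_mod_cast this
  have := le_one_of_nsmul_eq_zero' A.valuation (by rw [EQ_a₁]; exact val_intCast_le _ _)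
    (by rw [EQ_a₂]; exact val_intCast_le _ _) (by rw [EQ_a₃]; exact val_intCast_le _ _)
    (by rw [EQ_a₄]; exact val_intCast_le _ _) (by rw [EQ_a₆]; exact val_intCast_le _ _) hnv h0
  rw [A.valuation_le_one_iff, A.valuation_le_one_iff] at this
  exact ⟨(valOf_ge_zero_iff hq hA).mpr this.1, (valOf_ge_zero_iff hq hA).mpr this.2⟩

/-- **The basic lemma**, any residue characteristic. -/
theorem smul_eq_of_slope (hq : q.Prime) (hA : A.LiesOverPrime q) {n : ℕ} (hqn : ¬ q ∣ n)
    {σ : Qbar ≃ₐ[ℚ] Qbar} {x y : Qbar}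
    {h : (EQ W).Nonsingular x y} (hP : n • some x y h = 0) {m : ℚ}
    (hψ : (valOf hq hA).Is m (2 * y + (EQ W).a₁ * x + (EQ W).a₃))
    (hx : (valOf hq hA).Gt m (σ x - x)) (hy : (valOf hq hA).Gt m (σ y - y)) :
    σ • some x y h = some x y h := by
  set w := valOf hq hA with hw
  have ha1 : σ (EQ W).a₁ = (EQ W).a₁ := by rw [EQ_a₁, map_intCast]
  have ha3 : σ (EQ W).a₃ = (EQ W).a₃ := by rw [EQ_a₃, map_intCast]
  have hns : (EQ W).Nonsingular (σ x) (σ y) :=
    ((W.map (Int.castRingHom ℚ)).toAffine.baseChange_nonsingular (f := (σ : Qbar →ₐ[ℚ] Qbar))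
      σ.injective ..).mpr h
  have hσP : σ • some x y h = some (σ x) (σ y) hns := rfl
  rw [hσP]
  have hσP0 : n • some (σ x) (σ y) hns = 0 := by
    rw [← hσP]
    have := algEquiv_smul_zsmul (W' := W.map (Int.castRingHom ℚ)) σ (n : ℤ) (some x y h)
    rw [natCast_zsmul, natCast_zsmul, hP, smul_zero] at this
    exact this.symm
  by_cases hx' : σ x = x
  · rcases X_eq_iff (h₁ := hns) (h₂ := h) |>.mp hx' with hPQ | hPQ
    · exact hPQ
    · exfalso
      rw [neg_some, some.injEq] at hPQ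
      have hy' : σ y = -y - (EQ W).a₁ * x - (EQ W).a₃ := hPQ.2
      have h1 : σ y - y = -(2 * y + (EQ W).a₁ * x + (EQ W).a₃) := by rw [hy']; ring
      rw [h1] at hy
      exact hψ.neg.not_gt le_rfl hy
  · exfalso
    have hnn : (EQ W).Nonsingular x ((EQ W).negY x y) := (nonsingular_neg ..).mpr h
    have hxne : σ x ≠ x := hx'
    have hadd := add_of_X_ne (h₁ := hns) (h₂ := hnn) hxne
    set s := (EQ W).slope (σ x) x (σ y) ((EQ W).negY x y) with hs
    have hslope : s = (σ y - (EQ W).negY x y) / (σ x - x) := slope_of_X_ne hxne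
    have hden0 : σ x - x ≠ 0 := sub_ne_zero.mpr hxne
    have hden : w.Is (w.val (σ x - x)) (σ x - x) := QVal.Is.of_ne hden0
    have hr : m < w.val (σ x - x) := hx.resolve_left hden0
    have hnum : w.Is m (σ y - (EQ W).negY x y) := by
      have e : σ y - (EQ W).negY x y = (σ y - y) + (2 * y + (EQ W).a₁ * x + (EQ W).a₃) := by
        rw [negY]; ring
      rw [e]
      exact hy.add_is hψ
    set r := w.val (σ x - x) with hrdef
    have hsis : w.Is (m - r) s := by
      rw [hslope, div_eq_mul_inv]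
      exact (hnum.mul hden.inv).congr (by ring)
    have hα0 : n • (some (σ x) (σ y) hns + some x ((EQ W).negY x y) hnn) = 0 := by
      rw [nsmul_add, hσP0, zero_add, ← neg_some h, neg_nsmul, hP, _root_.neg_zero]
    rw [hadd] at hα0
    have hint := (integral_of_torsion hq hA hqn hα0).1
    have hxi := (integral_of_torsion hq hA hqn hP).1
    have hσxi := (integral_of_torsion hq hA hqn hσP0).1
    have hval : w.Is (2 * (m - r)) ((EQ W).addX (σ x) x s) := by
      have e : (EQ W).addX (σ x) x s = s ^ 2 + ((EQ W).a₁ * s - (EQ W).a₂ - σ x - x) := by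
        rw [addX]; ring
      rw [e]
      refine hsis.sq.add_gt ?_
      have g1 : w.Ge (0 + (m - r)) ((EQ W).a₁ * s) := by
        refine QVal.Ge.mul ?_ hsis.ge
        rw [EQ_a₁]
        exact ge_intCast' hq hA _
      have g2 : w.Ge 0 (EQ W).a₂ := by
        rw [EQ_a₂]
        exact ge_intCast' hq hA _
      refine QVal.Gt.sub (QVal.Gt.sub (QVal.Gt.sub (g1.gt ?_) (g2.gt ?_)) (hσxi.gt ?_))
        (hxi.gt ?_) <;> linarith
    have := hval.le_of_ge hint
    linarith

/-- **The centre**: the critical point near the node is fixed by inertia. -/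
theorem exists_centre (hW : IsMultAt W q) (hA : A.LiesOverPrime q) {e D : Qbar}
    (N : NodeRoot A.valuation (EQ W) e D) :
    ∃ c : Qbar, (∀ σ ∈ A.inertiaSubgroupIn ℚ, σ c = c) ∧
      (valOf hW.prime hA).Ge ((valOf hW.prime hA).val D) ((e - c) / 2) := by
  have hq := hW.prime
  have ND := N.nodeData hq hA hW.ne
  set w := valOf hq hA with hw
  have hh := ND.hh
  have hDis : w.Is (w.val D) D := ND.hD
  have hB : w.Is 0 ((EQ W).b₂ + 12 * e) := ND.hB
  set B := (EQ W).b₂ + 12 * e with hBdef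
  set hD := w.val D with hDdef
  have g12 : w.Ge 0 (12 : Qbar) := by exact_mod_cast QVal.ge_natCast (w := w) 12
  have g6 : w.Ge 0 (6 : Qbar) := by exact_mod_cast QVal.ge_natCast (w := w) 6
  have hc4 : w.Is 0 ((W.c₄ : ℤ) : Qbar) := by
    have h0 : W.c₄ ≠ 0 := fun h => hW.ndvd (by rw [h]; exact dvd_zero _)
    have h1 := is_intCast hq hA h0
    rw [padicValInt.eq_zero_of_not_dvd hW.ndvd] at h1
    exact_mod_cast h1
  obtain ⟨s, hs2, hu⟩ : ∃ s : Qbar, s ^ 2 = ((W.c₄ : ℤ) : Qbar) ∧ w.Is 0 ((B + s) / 2) := by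
    obtain ⟨s, hs⟩ := IsAlgClosed.exists_pow_nat_eq ((W.c₄ : ℤ) : Qbar) (n := 2) (by norm_num)
    have h1 : (B + s) / 2 + (B - s) / 2 = B := by ring
    have h2 : (B + s) / 2 * ((B - s) / 2) = 12 * D := by
      have : s ^ 2 = B ^ 2 - 48 * D := by rw [hs, ← EQ_c₄ W, N.hc]
      linear_combination (-1 / 4) * this
    rcases QVal.roots_split_ge h1 h2 hB ((g12.mul hDis.ge).mono (by linarith : hD ≤ 0 + hD))
      (by linarith) with ⟨h3, -⟩ | ⟨-, h3⟩
    · exact ⟨s, hs, h3⟩
    · exact ⟨-s, by rw [neg_sq, hs], by rw [← sub_eq_add_neg]; exact h3⟩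
  have hs4 : s ^ 2 = B ^ 2 - 48 * D := by rw [hs2, ← EQ_c₄ W, N.hc]
  have hsis : w.Is 0 s := by
    have hs0 : s ≠ 0 := by
      rintro rfl
      rw [zero_pow two_ne_zero] at hs2
      exact hc4.1 hs2.symm
    have h1 := (QVal.Is.of_ne (w := w) hs0).sq
    rw [hs2] at h1
    have h2 := h1.unique hc4
    exact ⟨hs0, by linarith⟩
  set u := (B + s) / 2 with hudef
  have he : w.Ge 0 e := by
    rw [hw, valOf_ge_zero_iff, ← A.valuation_le_one_iff]
    exact N.ve
  have hsfix : ∀ σ ∈ A.inertiaSubgroupIn ℚ, σ s = s := by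
    intro σ hσ
    have h1 : σ s ^ 2 = s ^ 2 := by
      rw [← map_pow, hs2, map_intCast]
    rcases sq_eq_sq_iff_eq_or_eq_neg.1 h1 with h | h
    · exact h
    · exfalso
      have h2 : w.Gt ((0 : ℤ) : ℚ) (σ u - u) := valOf_inertia hq hA hσ (by exact_mod_cast hu.ge)
      have h3 : w.Gt ((0 : ℤ) : ℚ) (σ e - e) := valOf_inertia hq hA hσ (by exact_mod_cast he)
      have hb2 : σ (EQ W).b₂ = (EQ W).b₂ := by rw [EQ_b₂, map_intCast]
      have h4 : σ u = ((EQ W).b₂ + 12 * σ e + σ s) / 2 := by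
        rw [hudef, hBdef, map_div₀, map_add, map_add, map_mul, hb2, map_ofNat, map_ofNat]
      have h5 : s = 6 * (σ e - e) - (σ u - u) := by
        rw [h4, h, hudef, hBdef]; ring
      have h6 : w.Gt 0 s := by
        rw [h5]
        refine QVal.Gt.sub ?_ (by exact_mod_cast h2)
        have := g6.mul_gt h3
        exact this.mono (by norm_num)
      exact hsis.not_gt le_rfl h6
  have hu0 : u ≠ 0 := hu.1
  refine ⟨e - 2 * D / u, fun σ hσ => ?_, ?_⟩
  · have h12 : 12 * (e - 2 * D / u) = s - (EQ W).b₂ := by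
      have h1 : u * (12 * (e - 2 * D / u)) = u * (s - (EQ W).b₂) := by
        field_simp
        rw [hudef, hBdef] at *
        linear_combination (-1 / 2) * hs4
      exact mul_left_cancel₀ hu0 h1
    have h1 : 12 * σ (e - 2 * D / u) = 12 * (e - 2 * D / u) := by
      have h2 := congrArg σ h12
      have hb2 : σ (EQ W).b₂ = (EQ W).b₂ := by rw [EQ_b₂, map_intCast]
      rw [map_mul, map_sub σ s, hb2, hsfix σ hσ, map_ofNat, ← h12] at h2
      exact h2
    exact mul_left_cancel₀ (by norm_num) h1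
  · have e1 : (e - (e - 2 * D / u)) / 2 = D * u⁻¹ := by
      field_simp
      ring
    rw [e1]
    exact (hDis.ge.mul hu.inv.ge).mono (by linarith)

/-- **Inertia acts trivially** on the `n`-torsion if `n ∣ v_q(Δ)`, `n` odd prime to `q`. -/
theorem inertia_smul_of_dvd (hW : IsMultAt W q) {n : ℕ} (hn : Odd n) (hqn : ¬ q ∣ n)
    (hd : n ∣ padicValInt q W.Δ) (hA : A.LiesOverPrime q) {σ : Qbar ≃ₐ[ℚ] Qbar}
    (hσ : σ ∈ A.inertiaSubgroupIn ℚ) {P : (EQ W).Point} (hP : n • P = 0) : σ • P = P := by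
  rcases P with _ | ⟨x, y, h⟩
  · rfl
  have hq := hW.prime
  obtain ⟨e, D, N⟩ := hW.exists_nodeRoot hA
  obtain ⟨c, hcfix, hcge⟩ := exists_centre hW hA N
  have ND := N.nodeData hq hA hW.ne
  set w := valOf hq hA with hw
  have hDis : w.Is (w.val D) D := ND.hD
  have hB : w.Is 0 ((EQ W).b₂ + 12 * e) := ND.hB
  have hh : 0 < w.val D := ND.hh
  -- `2 v(D) = v(Δ)`
  obtain ⟨d, hd⟩ := hd
  have hval : w.val D * 2 = n * d := by
    have g64 : w.Ge 0 (64 : Qbar) := by exact_mod_cast QVal.ge_natCast (w := w) 64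
    have hu : w.Is 0 (((EQ W).b₂ + 12 * e) ^ 2 - 64 * D) := by
      have h1 : w.Is 0 (((EQ W).b₂ + 12 * e) ^ 2) := hB.sq.congr (by ring)
      exact h1.sub_gt ((g64.mul hDis.ge).gt (by simpa using hh))
    have hΔis : w.Is (w.val D * 2) ((W.Δ : ℤ) : Qbar) := by
      rw [← EQ_Δ W, N.hΔ]
      exact (hDis.sq.mul hu).congr (by ring)
    have h2 := hΔis.unique (is_intCast hq hA hW.ne)
    rw [h2, hd]
    push_cast
    ring
  obtain ⟨hxi, hyi⟩ := integral_of_torsion hq hA hqn hP
  have he : w.Ge 0 e := by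
    rw [hw, valOf_ge_zero_iff, ← A.valuation_le_one_iff]
    exact N.ve
  have g1 : w.Ge 0 (EQ W).a₁ := by rw [EQ_a₁]; exact ge_intCast' hq hA _
  have g2 : w.Ge 0 (EQ W).a₂ := by rw [EQ_a₂]; exact ge_intCast' hq hA _
  have g3 : w.Ge 0 (EQ W).a₃ := by rw [EQ_a₃]; exact ge_intCast' hq hA _
  have gg2 : w.Ge 0 (2 : Qbar) := QVal.ge_two
  have gg3 : w.Ge 0 (3 : Qbar) := by exact_mod_cast QVal.ge_natCast (w := w) 3
  set x' : Qbar := x - e with hx'
  have hx'A : w.Ge 0 x' := hxi.sub he
  set ψ : Qbar := 2 * y + (EQ W).a₁ * x + (EQ W).a₃ with hψdef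
  have hψ2 : ψ ^ 2 = 4 * x' ^ 3 + ((EQ W).b₂ + 12 * e) * x' ^ 2 + 4 * D * x' := by
    rw [hψdef, psi2_sq h.1]
    linear_combination 2 * x' * ND.h4 + ND.h6
  by_cases hx0 : w.Gt 0 x'
  · obtain ⟨j, hj0, hj1, hval1⟩ := torsion_val ND hn hP hx0
    have hn0 : (0 : ℚ) < n := by exact_mod_cast hn.pos
    set m : ℤ := j * d with hm
    have hmis : w.Is (m : ℚ) x' := hval1.congr (by
      rw [hm]; push_cast; field_simp; linear_combination hval)
    have hj0' : (0 : ℚ) < j := by exact_mod_cast hj0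
    have hj1' : (2 * j : ℚ) < n := by exact_mod_cast hj1
    have hd0 : (0 : ℚ) < d := by
      have h1 : (0 : ℚ) < n * d := by rw [← hval]; linarith
      exact (mul_pos_iff_of_pos_left hn0).1 h1
    have hmpos : (0 : ℚ) < m := by rw [hm]; push_cast; positivity
    have hmlt : (m : ℚ) < w.val D := by
      rw [hm]; push_cast; nlinarith
    have hψm : w.Is m ψ := by
      have e1 : w.Is (2 * m) (ψ ^ 2) := by
        rw [hψ2]
        have c3 : w.Ge (3 * m) (x' ^ 3) := by exact_mod_cast hmis.ge.pow 3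
        refine (QVal.Gt.add_is ((QVal.ge_four.mul c3).gt ?_)
          ((hB.mul hmis.sq).congr ?_)).add_gt
          (((QVal.ge_four.mul hDis.ge).mul hmis.ge).gt ?_) <;> linarith
      have hψ0 : ψ ≠ 0 := by
        intro h0; rw [h0] at e1; exact e1.1 (by ring)
      have e2 := (QVal.Is.of_ne (w := w) hψ0).sq
      have e3 := e1.unique e2
      exact ⟨hψ0, by linarith⟩
    -- the abscissa relative to the centre
    have hec : w.Ge m (e - c) := by
      have h1 : e - c = 2 * ((e - c) / 2) := by ring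
      rw [h1]
      exact (gg2.mul hcge).mono (by linarith)
    have hxc : w.Ge m (x - c) := by
      have h1 : x - c = x' + (e - c) := by rw [hx']; ring
      rw [h1]
      exact hmis.ge.add hec
    -- the ordinate relative to the centre
    set yc : Qbar := -((EQ W).a₁ * c + (EQ W).a₃) / 2 with hyc
    set y' : Qbar := y + ((EQ W).a₁ * e + (EQ W).a₃) / 2 with hy'
    have hy'ge : w.Ge m y' := by
      have h1 : y' * -(y' + (EQ W).a₁ * x') =
          -(x' * (x' ^ 2 + ((EQ W).a₂ + 3 * e) * x' + D)) := by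
        have heq := (equation_iff ..).mp h.1
        have hb2 : WeierstrassCurve.b₂ (EQ W) = (EQ W).a₁ ^ 2 + 4 * (EQ W).a₂ := rfl
        have hb4 : WeierstrassCurve.b₄ (EQ W) = 2 * (EQ W).a₄ + (EQ W).a₁ * (EQ W).a₃ := rfl
        have hb6 : WeierstrassCurve.b₆ (EQ W) = (EQ W).a₃ ^ 2 + 4 * (EQ W).a₆ := rfl
        have h4 := ND.h4
        have h6 := ND.h6
        rw [hb2, hb4] at h4
        rw [hb2, hb4, hb6] at h6
        rw [hy', hx']
        linear_combination (-1) * heq - (x - e) / 2 * h4 - (1 / 4) * h6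
      refine QVal.roots_ge (a := y') (b := -(y' + (EQ W).a₁ * x')) (s := -((EQ W).a₁ * x'))
        (by ring) h1 ?_ ?_
      · exact ((g1.mul hmis.ge).mono (by linarith)).neg
      · have c1 : w.Ge m (x' ^ 2) := by
          have := hmis.ge.pow 2
          exact this.mono (by push_cast; linarith)
        have c2 : w.Ge m (((EQ W).a₂ + 3 * e) * x') :=
          ((g2.add ((gg3.mul he).mono (by norm_num))).mul hmis.ge).mono (by linarith)
        have c3 : w.Ge m D := hDis.ge.mono hmlt.le
        exact ((hmis.ge.mul ((c1.add c2).add c3)).mono (by linarith)).neg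
    have hyc' : w.Ge m (y - yc) := by
      have h1 : y - yc = y' - (EQ W).a₁ * ((e - c) / 2) := by rw [hyc, hy']; ring
      rw [h1]
      exact hy'ge.sub ((g1.mul hcge).mono (by linarith))
    have hσc := hcfix σ hσ
    have ha1 : σ (EQ W).a₁ = (EQ W).a₁ := by rw [EQ_a₁, map_intCast]
    have ha3 : σ (EQ W).a₃ = (EQ W).a₃ := by rw [EQ_a₃, map_intCast]
    have hσyc : σ yc = yc := by
      rw [hyc, map_div₀, map_neg, map_add, map_mul, ha1, ha3, hσc, map_ofNat]
    refine smul_eq_of_slope hq hA hqn hP hψm ?_ ?_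
    · have h1 := valOf_inertia hq hA hσ hxc
      rw [map_sub, hσc, sub_sub_sub_cancel_right] at h1
      exact h1
    · have h1 := valOf_inertia hq hA hσ hyc'
      rw [map_sub, hσyc, sub_sub_sub_cancel_right] at h1
      exact h1
  · have hx00 : w.Is 0 x' := by
      rw [QVal.not_gt_iff] at hx0
      exact ⟨hx0.1, le_antisymm hx0.2 (hx'A.resolve_left hx0.1)⟩
    have hψA : w.Ge 0 ψ := (((gg2.mul hyi).mono (by norm_num)).add
      ((g1.mul hxi).mono (by norm_num))).add g3
    have hψu : ¬ w.Gt 0 ψ := by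
      intro hψ0
      obtain ⟨hz, -⟩ | ⟨hψ, α, α', hα, hsum, hform⟩ := double_cases h
      · exact absurd (eq_zero_of_two_torsion hn hP hz) (some_ne_zero h)
      have hα0 : n • some α α' hα = 0 := by
        rw [← hsum, smul_add, hP, add_zero]
      have hαA := (integral_of_torsion hq hA hqn hα0).1
      have hform' : ψ ^ 2 * (α - e) = (x' ^ 2 - D) ^ 2 := by
        have hpsi := psi2_sq h.1
        linear_combination hform - e * hpsi - (x') ^ 2 * ND.h4 - 2 * x' * ND.h6 - ND.h8
      have e1 : w.Gt 0 (ψ ^ 2) := by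
        rw [pow_two]; exact (hψ0.mul_ge hψ0.ge).mono (by norm_num)
      have e2 : w.Gt 0 ((x' ^ 2 - D) ^ 2) := by
        rw [← hform']
        exact (e1.mul_ge (hαA.sub he)).mono (by norm_num)
      have e3 : w.Is (2 * (2 * 0)) ((x' ^ 2 - D) ^ 2) :=
        (hx00.sq.sub_gt (hDis.gt (by linarith))).sq
      have := e3.lt_of_gt e2
      norm_num at this
    have hψ0 : w.Is 0 ψ := by
      rw [QVal.not_gt_iff] at hψu
      exact ⟨hψu.1, le_antisymm hψu.2 (hψA.resolve_left hψu.1)⟩
    refine smul_eq_of_slope hq hA hqn hP hψ0 ?_ ?_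
    · have := valOf_inertia hq hA hσ (m := 0) (x := x) (by exact_mod_cast hxi)
      exact_mod_cast this
    · have := valOf_inertia hq hA hσ (m := 0) (x := y) (by exact_mod_cast hyi)
      exact_mod_cast this

end Fermat.Agent.Cor
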