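import Fermat.Agent.Corollaries.LevelLower
import Fermat.Agent.Corollaries.Surj.Inertia

/-!
# `serreLevel W p` is the conductor of `W[p]`

`W` a Weierstrass curve over `ℤ`, semistable at `q`, `p` an odd prime, `q ≠ p`: `W[p]` is unramified
at `q` if and only if `p ∣ v_q(Δ)`. So for `W` semistable the prime factors `q ≠ p` of
`serreLevel W p` are exactly the primes `q ≠ p` at which `W[p]` is ramified.
-/

set_option autoImplicit false

namespace Fermat.Agent.Cor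

open WeierstrassCurve WeierstrassCurve.Affine WeierstrassCurve.Affine.Point Fermat.Agent.ECRed

variable {W : WeierstrassCurve ℤ} {p q : ℕ}

/-- **Unramified at `q ≠ p` iff `p ∣ v_q(Δ)`** (`W` semistable at `q`). -/
theorem unramified_iff_dvd (hΔ : W.Δ ≠ 0) (hq : q.Prime)
    (hss : (q : ℤ) ∣ W.Δ → ¬ (q : ℤ) ∣ W.c₄) (hp : p.Prime) (hp2 : p ≠ 2) (hqp : q ≠ p) :
    GaloisRepUnramifiedAt (K := AlgebraicClosure ℚ) ℚ (W.map (Int.castRingHom ℚ)) p q ↔
      p ∣ padicValInt q W.Δ := by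
  have : Fact p.Prime := ⟨hp⟩
  have : Fact q.Prime := ⟨hq⟩
  constructor
  · intro h
    by_contra hv
    have hqΔ : (q : ℤ) ∣ W.Δ := by
      by_contra h1
      exact hv (by rw [padicValInt.eq_zero_of_not_dvd h1]; exact dvd_zero p)
    obtain ⟨A, hA⟩ := Frob.exists_liesOverPrime q hq
    obtain ⟨σ, hσ, hord⟩ := exists_inertia_order (W := W) ⟨hq, hqΔ, hss hqΔ, hΔ⟩ hp hp2 hv hA
    have h1 : MulAction.toPermHom (AlgebraicClosure ℚ ≃ₐ[ℚ] AlgebraicClosure ℚ)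
        (Submodule.torsionBy ℤ (EQ W).Point (p : ℤ)) σ = 1 :=
      Equiv.ext fun x => h A hA σ hσ x
    rw [h1, orderOf_one] at hord
    exact hp.one_lt.ne hord
  · intro hv A hA σ hσ x
    by_cases hqΔ : (q : ℤ) ∣ W.Δ
    · have hx := (Submodule.mem_torsionBy_iff _ _).mp x.2
      rw [natCast_zsmul] at hx
      exact Subtype.ext (inertia_smul_of_dvd ⟨hq, hqΔ, hss hqΔ, hΔ⟩ (hp.odd_of_ne_two hp2)
        (fun h => hqp ((Nat.prime_dvd_prime_iff_eq hq hp).mp h)) hv hA hσ hx)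
    · have h1 := ECFrob.rho_inertia (W := W) (n := p) (ℓ := q) hqΔ hA hσ
        (fun h => hqp ((Nat.prime_dvd_prime_iff_eq hq hp).mp h))
      exact LinearMap.congr_fun h1 x

/-- **The prime factors `q ≠ p` of `serreLevel W p` are the ramified primes `≠ p` of `W[p]`.** -/
theorem dvd_serreLevel_iff_ramified (hΔ : W.Δ ≠ 0) (hW : W.IsSemistableModel) (hq : q.Prime)
    (hp : p.Prime) (hp2 : p ≠ 2) (hqp : q ≠ p) :
    q ∣ serreLevel W p ↔
      ¬ GaloisRepUnramifiedAt (K := AlgebraicClosure ℚ) ℚ (W.map (Int.castRingHom ℚ)) p q := by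
  have : Fact q.Prime := ⟨hq⟩
  rw [unramified_iff_dvd hΔ hq (hW q hq) hp hp2 hqp, prime_dvd_serreLevel_iff hΔ hq]
  refine ⟨fun h => h.2, fun h => ⟨?_, h⟩⟩
  by_contra h1
  exact h (by rw [padicValInt.eq_zero_of_not_dvd h1]; exact dvd_zero p)

theorem mem_primeFactors_serreLevel_iff (hΔ : W.Δ ≠ 0) (hW : W.IsSemistableModel)
    (hp : p.Prime) (hp2 : p ≠ 2) (hqp : q ≠ p) :
    q ∈ (serreLevel W p).primeFactors ↔ q.Prime ∧
      ¬ GaloisRepUnramifiedAt (K := AlgebraicClosure ℚ) ℚ (W.map (Int.castRingHom ℚ)) p q := by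
  rw [Nat.mem_primeFactors]
  constructor
  · rintro ⟨h1, h2, -⟩
    exact ⟨h1, (dvd_serreLevel_iff_ramified hΔ hW h1 hp hp2 hqp).mp h2⟩
  · rintro ⟨h1, h2⟩
    exact ⟨h1, (dvd_serreLevel_iff_ramified hΔ hW h1 hp hp2 hqp).mpr h2, (serreLevel_pos W p).ne'⟩

/-- At `p` itself: `p ∤ serreLevel W p` iff `W` is peu ramifiée at `p`, i.e. `p ∣ v_p(Δ)` (good
reduction included). -/
theorem self_dvd_serreLevel_iff (hΔ : W.Δ ≠ 0) (hp : p.Prime) :
    p ∣ serreLevel W p ↔ ¬ (W.map (Int.castRingHom ℚ)).IsPeuRamifieeAt p p := by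
  have : Fact p.Prime := ⟨hp⟩
  rw [prime_dvd_serreLevel_iff hΔ hp, IsPeuRamifieeAt, WeierstrassCurve.map_Δ, eq_intCast,
    padicValRat.of_int, Int.natCast_dvd_natCast]
  refine ⟨fun h => h.2, fun h => ⟨?_, h⟩⟩
  by_contra h1
  exact h (by rw [padicValInt.eq_zero_of_not_dvd h1]; exact dvd_zero p)

/-- **There is a prime where `W[p]` is ramified**, other than `p`, or `W` is not peu ramifiée at
`p` (`W` semistable, `W[p]` irreducible). -/
theorem exists_ramified (hΔ : W.Δ ≠ 0) (hW : W.IsSemistableModel) (hp : p.Prime)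
    (hp2 : p ≠ 2) (hirr : W.ModRepIsIrreducible p)
    (hpeu : (W.map (Int.castRingHom ℚ)).IsPeuRamifieeAt p p) :
    ∃ q : ℕ, q.Prime ∧ q ≠ p ∧
      ¬ GaloisRepUnramifiedAt (K := AlgebraicClosure ℚ) ℚ (W.map (Int.castRingHom ℚ)) p q := by
  obtain ⟨q, hq, hqd⟩ := Nat.exists_prime_and_dvd (n := serreLevel W p)
    (by have := eleven_le_serreLevel hΔ hW hp hp2 hirr; omega)
  have hqp : q ≠ p := by
    rintro rfl
    exact (self_dvd_serreLevel_iff hΔ hp).mp hqd hpeu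
  exact ⟨q, hq, hqp, (dvd_serreLevel_iff_ramified hΔ hW hq hp hp2 hqp).mp hqd⟩

end Fermat.Agent.Cor
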